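import Mathlib
import Fermat.Prelude.Def_FLTPrelim_GaloisRep
import Fermat.Prelude.Def_FLTPrelim_Ramification
import Fermat.Prelude.Def_EllipticCurve_FrobeniusTrace
import Fermat.Agent.S13.Open_h6
import Fermat.Agent.S29.CycCheb.Main

/-!
# S41 / L4 (N2): Chebotarev glue for fixed vectors on `E[p]`

`forall_exists_fixed`: let `E` be a Weierstrass curve over `ℚ` with `E[p](ℚ̄)` finite.  If every
Frobenius lift `σ` at every valuation subring over every prime `ℓ ∉ bad` fixes a nonzero point of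
`E[p](ℚ̄)`, then so does every `g ∈ Gal(ℚ̄/ℚ)`.

Proof: `E[p]` is fixed pointwise by `Gal(ℚ̄/L)` for a finite Galois `L/ℚ`
(`S13/Open_h6.exists_finite_fixing_torsion` + normal closure); weak cyclic Chebotarev
(`S29/CycCheb/Main.exists_frobenius_generator`) gives a Frobenius lift `σ` with `g|_L = σ^j|_L`;
a fixed vector of `σ` is fixed by `σ^j`, hence by `g`.
-/

set_option autoImplicit false

namespace Fermat.Agent.S41.NonEis.ChebGlue

open WeierstrassCurve WeierstrassCurve.Affine WeierstrassCurve.Affine.Point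

local notation "Qbar" => AlgebraicClosure ℚ
local notation "GQ" => (AlgebraicClosure ℚ ≃ₐ[ℚ] AlgebraicClosure ℚ)

/-- a finite Galois level above a finite level -/
theorem exists_galois_above (L0 : IntermediateField ℚ Qbar) [FiniteDimensional ℚ L0] :
    ∃ F : IntermediateField ℚ Qbar, FiniteDimensional ℚ F ∧ IsGalois ℚ F ∧ L0 ≤ F := by
  have : Normal ℚ Qbar :=
    @IsAlgClosure.normal ℚ Qbar _ _ _ ⟨inferInstance, AlgebraicClosure.isAlgebraic ℚ⟩
  refine ⟨IntermediateField.normalClosure ℚ L0 Qbar, inferInstance, ?_, ?_⟩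
  · have : Normal ℚ (IntermediateField.normalClosure ℚ L0 Qbar) :=
      normalClosure.normal ℚ L0 Qbar
    exact ⟨⟩
  · exact IntermediateField.le_normalClosure _

/-- powers of an element fixing `v` fix `v` -/
theorem pow_smul_eq {G V : Type*} [Group G] [AddCommGroup V] [DistribMulAction G V] {σ : G} {v : V}
    (h : σ • v = v) (j : ℕ) : (σ ^ j) • v = v := by
  induction j with
  | zero => rw [pow_zero, one_smul]
  | succ j ih => rw [pow_succ, mul_smul, h, ih]

variable (E : WeierstrassCurve ℚ) (p : ℕ)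

/-- **Chebotarev glue.** -/
theorem forall_exists_fixed [Finite (Submodule.torsionBy ℤ (E⁄Qbar).Point p)] (bad : Finset ℕ)
    (hF : ∀ ℓ : ℕ, ℓ.Prime → ℓ ∉ bad → ∀ A : ValuationSubring Qbar, A.LiesOverPrime ℓ →
      ∀ σ : GQ, A.IsFrobeniusAt σ ℓ →
        ∃ v : Submodule.torsionBy ℤ (E⁄Qbar).Point p, v ≠ 0 ∧ σ • v = v)
    (g : GQ) : ∃ v : Submodule.torsionBy ℤ (E⁄Qbar).Point p, v ≠ 0 ∧ g • v = v := by
  obtain ⟨L0, hL0fin, hL0⟩ := Fermat.Agent.S13.Open6.exists_finite_fixing_torsion (E := E) p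
  obtain ⟨L, hLfin, hLgal, hle⟩ := exists_galois_above L0
  obtain ⟨ℓ, A, σ, i, j, hℓ, hbad, hA, hσ, -, hgσ⟩ :=
    Fermat.Agent.S29.CycCheb.Main.exists_frobenius_generator L g bad
  obtain ⟨v, hv, hσv⟩ := hF ℓ hℓ hbad A hA σ hσ
  refine ⟨v, hv, ?_⟩
  have hpow : (σ ^ j) • v = v := pow_smul_eq hσv j
  -- `τ := (σ^j)⁻¹ g` fixes `L ⊇ L0` pointwise
  have hτ : ((σ ^ j)⁻¹ * g) ∈ L0.fixingSubgroup := by
    rw [IntermediateField.mem_fixingSubgroup_iff]
    intro x hx
    have hxL : x ∈ L := hle hx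
    have h1 : g x = (σ ^ j) x := hgσ x hxL
    show (σ ^ j)⁻¹ (g x) = x
    rw [h1]
    exact (σ ^ j).symm_apply_apply x
  have hτv : ((σ ^ j)⁻¹ * g) • v = v := hL0 _ hτ v
  have : g • v = (σ ^ j) • (((σ ^ j)⁻¹ * g) • v) := by
    rw [smul_smul, mul_inv_cancel_left]
  rw [this, hτv, hpow]

end Fermat.Agent.S41.NonEis.ChebGlue
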