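import Mathlib
import Fermat.Agent.S41.NonEis.ChebGlue
import Fermat.Agent.S29.Cyclo.ModPChar

/-!
# S41 / L4 (N8b): Chebotarev glue restricted to primes that are squares modulo `M`

* `valuation_sub_of_pow` : reduction modulo a place `A` of `Q̄` is injective on `μ_n` when all prime
  divisors of `n` are units at `A`;
* `frobenius_zeta` : a Frobenius lift at a place over `ℓ ∤ M` raises every `M`-th root of unity to
  its `ℓ`-th power;
* `sqSubgroup hζ` : the (normal) subgroup of `Gal(Q̄/ℚ)` of elements acting on `μ_M` through a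
  square of `(ℤ/M)ˣ`; it contains all squares;
* `forall_exists_fixed_sq` : if every Frobenius lift at every prime `ℓ ∉ bad` which is a *square
  modulo `M`* fixes a nonzero point of `E[p](Q̄)`, then so does every element of `sqSubgroup hζ`.
-/

set_option autoImplicit false

namespace Fermat.Agent.S41.NonEis.ChebGlueSq

open WeierstrassCurve WeierstrassCurve.Affine WeierstrassCurve.Affine.Point
open Fermat.Agent.S29.Cyclo.ModPChar

local notation "Qbar" => AlgebraicClosure ℚ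
local notation "GalQ" => (AlgebraicClosure ℚ ≃ₐ[ℚ] AlgebraicClosure ℚ)

/-! ### reduction is injective on roots of unity of order prime to the residue characteristic -/

/-- `1 - η` is a unit at `A` for every nontrivial `n`-th root of unity `η`, if all prime divisors
of `n` are units at `A` -/
theorem valuation_one_sub_of_pow (A : ValuationSubring Qbar) {n : ℕ} (hn0 : n ≠ 0)
    (hn : ∀ r : ℕ, r.Prime → r ∣ n → A.valuation (r : Qbar) = 1) {η : Qbar} (hη : η ^ n = 1)
    (hη1 : η ≠ 1) : A.valuation (1 - η) = 1 := by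
  have hord : orderOf η ∣ n := orderOf_dvd_of_pow_eq_one hη
  have hd1 : orderOf η ≠ 1 := fun h => hη1 (orderOf_eq_one_iff.mp h)
  have hd0 : orderOf η ≠ 0 := by
    intro h
    rw [h, zero_dvd_iff] at hord
    exact hn0 hord
  have hr : (orderOf η).minFac.Prime := Nat.minFac_prime hd1
  have hrd : (orderOf η).minFac ∣ orderOf η := Nat.minFac_dvd _
  have : Fact (orderOf η).minFac.Prime := ⟨hr⟩
  have hprim : IsPrimitiveRoot η (orderOf η) := IsPrimitiveRoot.orderOf η
  have he : orderOf η = (orderOf η / (orderOf η).minFac) * (orderOf η).minFac :=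
    (Nat.div_mul_cancel hrd).symm
  have hprim' : IsPrimitiveRoot (η ^ (orderOf η / (orderOf η).minFac)) (orderOf η).minFac :=
    hprim.pow (Nat.pos_of_ne_zero hd0) he
  have h1 := valuation_one_sub A (hn _ hr (dvd_trans hrd hord)) hprim'
  have hv : A.valuation η = 1 := valuation_of_pow_eq_one A hn0 hη
  have hle : A.valuation (1 - η) ≤ 1 := by
    calc A.valuation (1 - η) ≤ max (A.valuation 1) (A.valuation η) := A.valuation.map_sub _ _
      _ = 1 := by rw [map_one, hv, max_self]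
  have hgeom : (1 : Qbar) - η ^ (orderOf η / (orderOf η).minFac)
      = (1 - η) * ∑ t ∈ Finset.range (orderOf η / (orderOf η).minFac), η ^ t :=
    (mul_neg_geom_sum η _).symm
  have hsum : A.valuation (∑ t ∈ Finset.range (orderOf η / (orderOf η).minFac), η ^ t) ≤ 1 := by
    apply A.valuation.map_sum_le
    intro t _
    rw [map_pow, hv, one_pow]
  by_contra hne
  have hlt : A.valuation (1 - η) < 1 := lt_of_le_of_ne hle hne
  have h3 : A.valuation ((1 : Qbar) - η ^ (orderOf η / (orderOf η).minFac)) < 1 := by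
    rw [hgeom, map_mul]
    calc A.valuation (1 - η) *
          A.valuation (∑ t ∈ Finset.range (orderOf η / (orderOf η).minFac), η ^ t)
        ≤ A.valuation (1 - η) * 1 := mul_le_mul_right hsum _
      _ = A.valuation (1 - η) := mul_one _
      _ < 1 := hlt
  rw [h1] at h3
  exact lt_irrefl _ h3

/-- **reduction is injective on `μ_n`**: two distinct `n`-th roots of unity differ by a unit of
`A`, when all prime divisors of `n` are units at `A` -/
theorem valuation_sub_of_pow (A : ValuationSubring Qbar) {n : ℕ} (hn0 : n ≠ 0)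
    (hn : ∀ r : ℕ, r.Prime → r ∣ n → A.valuation (r : Qbar) = 1) {x y : Qbar} (hx : x ^ n = 1)
    (hy : y ^ n = 1) (hxy : x ≠ y) : A.valuation (x - y) = 1 := by
  have hx0 : x ≠ 0 := by
    rintro rfl
    rw [zero_pow hn0] at hx
    exact zero_ne_one hx
  have hη1 : (y * x⁻¹) ^ n = 1 := by rw [mul_pow, inv_pow, hx, hy, inv_one, mul_one]
  have hη2 : y * x⁻¹ ≠ 1 := by
    intro h
    apply hxy
    have := congrArg (· * x) h
    simp only [one_mul] at this
    rw [mul_assoc, inv_mul_cancel₀ hx0, mul_one] at this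
    exact this.symm
  have h1 := valuation_one_sub_of_pow A hn0 hn hη1 hη2
  have h2 : x - y = x * (1 - y * x⁻¹) := by
    field_simp
  rw [h2, map_mul, h1, mul_one]
  exact valuation_of_pow_eq_one A hn0 hx

/-- **Frobenius on roots of unity.** A Frobenius lift at a place over `ℓ ∤ M` raises every `M`-th
root of unity to its `ℓ`-th power. -/
theorem frobenius_zeta {M : ℕ} (hM : M ≠ 0) {ζ : Qbar} (hζ : ζ ^ M = 1) {ℓ : ℕ} (hℓ : ℓ.Prime)
    (hℓM : ¬ ℓ ∣ M) (A : ValuationSubring Qbar) (hA : A.LiesOverPrime ℓ) (σ : GalQ)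
    (hσ : A.IsFrobeniusAt σ ℓ) : σ ζ = ζ ^ ℓ := by
  have hn : ∀ r : ℕ, r.Prime → r ∣ M → A.valuation (r : Qbar) = 1 := by
    intro r hr hrM
    have : Fact r.Prime := ⟨hr⟩
    refine valuation_prime_eq_one A hA hℓ ?_
    rintro rfl
    exact hℓM hrM
  have hzA : ζ ∈ A := by
    rw [← A.valuation_le_one_iff, valuation_of_pow_eq_one A hM hζ]
  have h1 := valuation_sub_pow_lt_one A σ hσ.mem_decompositionSubgroup ℓ hσ.smul_residue_eq hzA
  by_contra hne
  have h2 : A.valuation (σ ζ - ζ ^ ℓ) = 1 := by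
    apply valuation_sub_of_pow A hM hn _ _ hne
    · rw [← map_pow, hζ, map_one]
    · rw [← pow_mul, mul_comm, pow_mul, hζ, one_pow]
  rw [h2] at h1
  exact lt_irrefl _ h1

/-! ### the subgroup of elements acting on `μ_M` through squares -/

variable {M : ℕ} [NeZero M] {ζ : Qbar}

/-- the subgroup of `Gal(Q̄/ℚ)` of elements acting on `μ_M` through a square of `(ℤ/M)ˣ` -/
noncomputable def sqSubgroup (hζ : IsPrimitiveRoot ζ M) : Subgroup GalQ :=
  (powMonoidHom 2 : (ZMod M)ˣ →* (ZMod M)ˣ).range.comap (hζ.autToPow ℚ)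

lemma mem_sqSubgroup (hζ : IsPrimitiveRoot ζ M) (g : GalQ) :
    g ∈ sqSubgroup hζ ↔ ∃ u : (ZMod M)ˣ, u ^ 2 = hζ.autToPow ℚ g := by
  unfold sqSubgroup
  rw [Subgroup.mem_comap, MonoidHom.mem_range]
  simp only [powMonoidHom_apply]

instance sqSubgroup_normal (hζ : IsPrimitiveRoot ζ M) : (sqSubgroup hζ).Normal := by
  unfold sqSubgroup
  infer_instance

lemma mul_self_mem_sqSubgroup (hζ : IsPrimitiveRoot ζ M) (g : GalQ) :
    g * g ∈ sqSubgroup hζ := by
  rw [mem_sqSubgroup]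
  exact ⟨hζ.autToPow ℚ g, by rw [map_mul, pow_two]⟩

/-- powers of a primitive root agree iff the exponents are congruent -/
lemma pow_eq_pow_iff (hζ : IsPrimitiveRoot ζ M) (a b : ℕ) : ζ ^ a = ζ ^ b ↔ a ≡ b [MOD M] := by
  have hfin : IsOfFinOrder ζ :=
    isOfFinOrder_iff_pow_eq_one.mpr ⟨M, NeZero.pos M, hζ.pow_eq_one⟩
  rw [hfin.pow_eq_pow_iff_modEq, ← hζ.eq_orderOf]

/-- elements of `sqSubgroup` raise `ζ` to a square power -/
lemma exists_sq_of_mem_sqSubgroup (hζ : IsPrimitiveRoot ζ M) {g : GalQ}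
    (hg : g ∈ sqSubgroup hζ) : ∃ m : ℕ, g ζ = ζ ^ (m * m) := by
  obtain ⟨u, hu⟩ := (mem_sqSubgroup hζ g).mp hg
  refine ⟨((u : (ZMod M)ˣ) : ZMod M).val, ?_⟩
  have h1 := hζ.autToPow_spec ℚ g
  rw [← hu] at h1
  rw [← h1]
  -- compare exponents modulo `M`
  have hmod : (((u ^ 2 : (ZMod M)ˣ) : ZMod M)).val
      ≡ ((u : (ZMod M)ˣ) : ZMod M).val * ((u : (ZMod M)ˣ) : ZMod M).val [MOD M] := by
    rw [← ZMod.natCast_eq_natCast_iff]
    push_cast
    rw [ZMod.natCast_val, ZMod.natCast_val, ZMod.cast_id, ZMod.cast_id, pow_two]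
  exact (pow_eq_pow_iff hζ _ _).mpr hmod

/-- if `g ζ = ζ ^ (m * m)` then `g ∈ sqSubgroup` -/
lemma mem_sqSubgroup_of_sq (hζ : IsPrimitiveRoot ζ M) {g : GalQ} {m : ℕ}
    (hg : g ζ = ζ ^ (m * m)) : g ∈ sqSubgroup hζ := by
  rw [mem_sqSubgroup]
  have hprim : IsPrimitiveRoot (g ζ) M := hζ.map_of_injective g.injective
  rw [hg] at hprim
  have hcop : (m * m).Coprime M := (hζ.pow_iff_coprime (NeZero.pos M) _).mp hprim
  have hcopm : m.Coprime M := Nat.Coprime.coprime_mul_left hcop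
  refine ⟨ZMod.unitOfCoprime m hcopm, ?_⟩
  apply Units.ext
  have h1 := hζ.autToPow_spec ℚ g
  rw [hg] at h1
  -- exponents agree modulo `M`
  have hmod : ((hζ.autToPow ℚ g : (ZMod M)ˣ) : ZMod M).val ≡ m * m [MOD M] :=
    (pow_eq_pow_iff hζ _ _).mp h1
  have h2 := (ZMod.natCast_eq_natCast_iff _ _ _).mpr hmod
  rw [ZMod.natCast_val, ZMod.cast_id] at h2
  rw [Units.val_pow_eq_pow_val, ZMod.coe_unitOfCoprime, h2]
  push_cast
  ring

/-- there is a primitive `M`-th root of unity in `Q̄` -/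
theorem exists_zeta (M : ℕ) [NeZero M] : ∃ ζ : Qbar, IsPrimitiveRoot ζ M :=
  HasEnoughRootsOfUnity.exists_primitiveRoot Qbar M

/-- the two ways of saying that `ℓ` is a square modulo `M` -/
lemma exists_modEq_sq_iff_isSquare (M ℓ : ℕ) [NeZero M] :
    (∃ m : ℕ, ℓ ≡ m * m [MOD M]) ↔ IsSquare ((ℓ : ℕ) : ZMod M) := by
  constructor
  · rintro ⟨m, hm⟩
    refine ⟨(m : ZMod M), ?_⟩
    have := (ZMod.natCast_eq_natCast_iff _ _ _).mpr hm
    rw [this]
    push_cast
    rfl
  · rintro ⟨a, ha⟩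
    refine ⟨a.val, ?_⟩
    rw [← ZMod.natCast_eq_natCast_iff, ha]
    push_cast
    rw [ZMod.natCast_val, ZMod.cast_id]

/-! ### the Chebotarev glue -/

/-- **Chebotarev glue for primes that are squares modulo `M`.** -/
theorem forall_exists_fixed_sq (E : WeierstrassCurve ℚ) (p : ℕ)
    [Finite (Submodule.torsionBy ℤ (E⁄Qbar).Point p)] (hζ : IsPrimitiveRoot ζ M)
    (bad : Finset ℕ)
    (hF : ∀ ℓ : ℕ, ℓ.Prime → ℓ ∉ bad → (∃ m : ℕ, ℓ ≡ m * m [MOD M]) →
      ∀ A : ValuationSubring Qbar, A.LiesOverPrime ℓ →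
      ∀ σ : GalQ, A.IsFrobeniusAt σ ℓ →
        ∃ v : Submodule.torsionBy ℤ (E⁄Qbar).Point p, v ≠ 0 ∧ σ • v = v)
    (g : GalQ) (hg : g ∈ sqSubgroup hζ) :
    ∃ v : Submodule.torsionBy ℤ (E⁄Qbar).Point p, v ≠ 0 ∧ g • v = v := by
  have hM0 : M ≠ 0 := NeZero.ne M
  obtain ⟨L0, hL0fin, hL0⟩ := Fermat.Agent.S13.Open6.exists_finite_fixing_torsion (E := E) p
  have hint : IsIntegral ℚ ζ := Algebra.IsIntegral.isIntegral ζ
  have : FiniteDimensional ℚ (IntermediateField.adjoin ℚ {ζ}) :=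
    IntermediateField.adjoin.finiteDimensional hint
  have : FiniteDimensional ℚ ↥(L0 ⊔ IntermediateField.adjoin ℚ {ζ}) :=
    IntermediateField.finiteDimensional_sup L0 _
  obtain ⟨L, hLfin, hLgal, hle⟩ :=
    Fermat.Agent.S41.NonEis.ChebGlue.exists_galois_above (L0 ⊔ IntermediateField.adjoin ℚ {ζ})
  have hL0L : L0 ≤ L := le_trans le_sup_left hle
  have hζL : ζ ∈ L :=
    hle (le_sup_right (a := L0) (IntermediateField.mem_adjoin_simple_self ℚ ζ))
  obtain ⟨ℓ, A, σ, i, j, hℓ, hbad, hA, hσ, hσg, hgσ⟩ :=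
    Fermat.Agent.S29.CycCheb.Main.exists_frobenius_generator L g (bad ∪ M.primeFactors)
  have hbad1 : ℓ ∉ bad := fun h => hbad (Finset.mem_union_left _ h)
  have hℓM : ¬ ℓ ∣ M := by
    intro h
    exact hbad (Finset.mem_union_right _ (Nat.mem_primeFactors.mpr ⟨hℓ, h, hM0⟩))
  -- `ℓ` is a square modulo `M`
  have hsq : ∃ m : ℕ, ℓ ≡ m * m [MOD M] := by
    have hgi : g ^ i ∈ sqSubgroup hζ := Subgroup.pow_mem _ hg i
    obtain ⟨m, hm⟩ := exists_sq_of_mem_sqSubgroup hζ hgi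
    refine ⟨m, ?_⟩
    have h1 : σ ζ = ζ ^ ℓ := frobenius_zeta hM0 hζ.pow_eq_one hℓ hℓM A hA σ hσ
    have h2 : ζ ^ ℓ = ζ ^ (m * m) := by rw [← h1, hσg ζ hζL, hm]
    exact (pow_eq_pow_iff hζ _ _).mp h2
  obtain ⟨v, hv, hσv⟩ := hF ℓ hℓ hbad1 hsq A hA σ hσ
  refine ⟨v, hv, ?_⟩
  have hpow : (σ ^ j) • v = v := Fermat.Agent.S41.NonEis.ChebGlue.pow_smul_eq hσv j
  have hτ : ((σ ^ j)⁻¹ * g) ∈ L0.fixingSubgroup := by
    rw [IntermediateField.mem_fixingSubgroup_iff]
    intro x hx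
    have hxL : x ∈ L := hL0L hx
    have h1 : g x = (σ ^ j) x := hgσ x hxL
    show (σ ^ j)⁻¹ (g x) = x
    rw [h1]
    exact (σ ^ j).symm_apply_apply x
  have hτv : ((σ ^ j)⁻¹ * g) • v = v := hL0 _ hτ v
  have : g • v = (σ ^ j) • (((σ ^ j)⁻¹ * g) • v) := by
    rw [smul_smul, mul_inv_cancel_left]
  rw [this, hτv, hpow]

end Fermat.Agent.S41.NonEis.ChebGlueSq
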