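import Fermat.Agent.S41.NonEis.MainSq
import Fermat.Agent.S41.NonEis.ChebGlueSq

/-!
# S41 / L4, square variant: the block `Top2.BlockNonEisSq`, unconditionally

`MainSq.blockNonEisSq_of_cheb` reduces `Top2.BlockNonEisSq` to the abstract Chebotarev-for-squares
statement `MainSq.ChebSqStmt`, which is `ChebGlueSq.forall_exists_fixed_sq` (helper4) for the
subgroup `ChebGlueSq.sqSubgroup hζ`, `ζ` a primitive `M`-th root of unity in `ℚ̄`.
-/

set_option autoImplicit false

namespace Fermat.Agent.S41.NonEis.BlockSq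

open Fermat.Agent.S41.NonEis

/-- Chebotarev for primes that are squares modulo `M` -/
theorem chebSqStmt : MainSq.ChebSqStmt := by
  intro E p M _ hM bad hF
  have : NeZero M := ⟨hM.ne'⟩
  obtain ⟨ζ, hζ⟩ := ChebGlueSq.exists_zeta M
  exact ⟨ChebGlueSq.sqSubgroup hζ, ChebGlueSq.sqSubgroup_normal hζ,
    ChebGlueSq.mul_self_mem_sqSubgroup hζ,
    fun h hh => ChebGlueSq.forall_exists_fixed_sq E p hζ bad hF h hh⟩

/-- **L4, square variant**: an irreducible `E[p]` is not Eisenstein, and the witness prime `ℓ` can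
be taken to be a square modulo `M`. -/
theorem blockNonEisSq : Fermat.Agent.S41.Top2.BlockNonEisSq :=
  MainSq.blockNonEisSq_of_cheb chebSqStmt

end Fermat.Agent.S41.NonEis.BlockSq
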