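import Mathlib
import Fermat.Prelude.Def_FLTPrelim_Modularity
import Fermat.Prelude.Def_EllipticCurve_FrobeniusTrace
import Fermat.Agent.S05.KernelPx
import Fermat.Agent.S05.FreyLocal
import Fermat.Agent.S13.Ladder
import Fermat.Agent.S13.ValInt
import Fermat.Agent.S13.ValSubringZbar

/-!
# S41 / L4 (non-Eisenstein block), steps N4 + N5: a Frobenius-fixed `p`-torsion point from an
`𝔽_ℓ`-rational point of order `p`

`W` an integral Weierstrass model, `ℓ ∤ 2 p Δ` a prime, `A` a valuation subring of `ℚ̄` over `ℓ`.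
If `p` divides the number of `𝔽_ℓ`-points of the reduction of `W` (equivalently
`p ∣ a_ℓ - (ℓ + 1)`), then every `σ` in the decomposition group of `A` (in particular every
Frobenius element at `A`) fixes a nonzero point of `E[p](ℚ̄)`, `E = W_ℚ`.

Proof (no reduction map, no residue field): Cauchy gives an `𝔽_ℓ`-point `(x̃, ỹ)` of order `p`;
lift `x̃` to an integer `a` and `η̃ = 2ỹ + a₁x̃ + a₃` to an integer `e`; then `ℓ ∣ T(a)` for the
`p`-division polynomial `T = tors W (p / 2) ∈ ℤ[X]` (leading coefficient `p`) and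
`ℓ ∣ e² - f(a)`, `f` the `2`-division cubic.  Over `ℚ̄` the polynomial `T` splits with roots in
`A`, so some root `r` is congruent to `a` modulo `𝔪_A`; a point `P` above `r` has `η(P) ≡ ± e`.
Both `P` and `σ P` are then congruent to `(a, e)`, so `σ P - P` lies in the kernel of reduction
(`S05.sub_inKer_of_congr`, the reduction being nonsingular as `ℓ ∤ 2Δ`), which has no
`p`-torsion (`S05.smul_eq_of_sub_inKer`).
-/

set_option autoImplicit false
set_option linter.unusedSectionVars false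

namespace Fermat.Agent.S41.NonEis.RedTorsion

open Polynomial WeierstrassCurve WeierstrassCurve.Affine Fermat.Agent.S51 Fermat.Agent.S05
  Fermat.Agent.S13.Ladder

local notation "Qbar" => AlgebraicClosure ℚ

/-! ### valuation lemmas -/

section Val

variable {K : Type*} [Field K] (A : ValuationSubring K)

/-- a root of an integer polynomial whose leading coefficient is a unit of `A` lies in `A` -/
lemma root_mem {f : ℤ[X]} (hlc : A.valuation ((f.leadingCoeff : ℤ) : K) = 1) {r : K}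
    (hr : (f.map (Int.castRingHom K)).eval r = 0) : r ∈ A := by
  have h0 : aeval r f = 0 := by
    rw [aeval_def, algebraMap_int_eq, ← eval_map]
    exact hr
  have h1 : IsIntegral ℤ (f.leadingCoeff • r) := isIntegral_leadingCoeff_smul f r h0
  have h2 := Fermat.Agent.S13.ValInt.valuation_le_one_of_isIntegral A h1
  rw [zsmul_eq_mul, map_mul, hlc, one_mul] at h2
  exact (A.valuation_le_one_iff r).mp h2

/-- if `f` has unit leading coefficient, all its roots lie in `A`, and `v (f a) < 1` for some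
`a ∈ A`, then some root of `f` is congruent to `a`. -/
lemma exists_root_near [IsAlgClosed K] {f : K[X]} (hlc : A.valuation f.leadingCoeff = 1)
    (hroots : ∀ r, f.eval r = 0 → r ∈ A) {a : K} (ha : a ∈ A)
    (hfa : A.valuation (f.eval a) < 1) :
    ∃ r, f.eval r = 0 ∧ A.valuation (a - r) < 1 := by
  have hf0 : f ≠ 0 := by
    rintro rfl
    simp at hlc
  rw [(IsAlgClosed.splits f).eval_eq_prod_roots, map_mul, hlc, one_mul, map_multiset_prod,
    Multiset.map_map] at hfa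
  by_contra hcon
  have hcon' : ∀ r, f.eval r = 0 → 1 ≤ A.valuation (a - r) := by
    intro r hr
    by_contra hlt
    exact hcon ⟨r, hr, not_le.mp hlt⟩
  have hall : ∀ x ∈ (f.roots.map (A.valuation ∘ fun r => a - r)), x = 1 := by
    intro x hx
    obtain ⟨r, hr, rfl⟩ := Multiset.mem_map.mp hx
    have hr0 : f.eval r = 0 := (mem_roots hf0).mp hr
    exact le_antisymm ((A.valuation_le_one_iff _).mpr (sub_mem ha (hroots r hr0))) (hcon' r hr0)
  rw [Multiset.prod_eq_one hall] at hfa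
  exact lt_irrefl _ hfa

lemma val_lt_one_of_mul {x y : K} (hx : x ∈ A) (hy : y ∈ A) (h : A.valuation (x * y) < 1) :
    A.valuation x < 1 ∨ A.valuation y < 1 := by
  by_contra hcon
  rw [not_or, not_lt, not_lt] at hcon
  have hx1 : A.valuation x = 1 := le_antisymm ((A.valuation_le_one_iff _).mpr hx) hcon.1
  have hy1 : A.valuation y = 1 := le_antisymm ((A.valuation_le_one_iff _).mpr hy) hcon.2
  rw [map_mul, hx1, hy1, one_mul] at h
  exact lt_irrefl _ h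

lemma val_add_lt_one {x y : K} (hx : A.valuation x < 1) (hy : A.valuation y < 1) :
    A.valuation (x + y) < 1 :=
  lt_of_le_of_lt (A.valuation.map_add _ _) (max_lt hx hy)

lemma val_sub_lt_one {x y : K} (hx : A.valuation x < 1) (hy : A.valuation y < 1) :
    A.valuation (x - y) < 1 := by
  rw [sub_eq_add_neg]
  exact val_add_lt_one A hx (by rwa [Valuation.map_neg])

lemma val_mul_lt_one_left {x y : K} (hx : A.valuation x < 1) (hy : y ∈ A) :
    A.valuation (x * y) < 1 := by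
  rw [map_mul]
  calc A.valuation x * A.valuation y ≤ A.valuation x * 1 := by
        gcongr
        exact (A.valuation_le_one_iff _).mpr hy
    _ = A.valuation x := mul_one _
    _ < 1 := hx

end Val

/-! ### the discriminant of the `2`-division cubic -/

section Disc

variable {K : Type*} [Field K]

/-- cofactor of `f` in the Bezout identity for the discriminant -/
def cofA (B2 B4 B6 x : K) : K :=
  12 * (48 * B4 - 2 * B2 ^ 2) * x + (2 * B2 * (48 * B4 - 2 * B2 ^ 2) - 12 * (36 * B6 - 2 * B2 * B4))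

/-- cofactor of `f'` in the Bezout identity for the discriminant -/
def cofB (B2 B4 B6 x : K) : K :=
  4 * (48 * B4 - 2 * B2 ^ 2) * x ^ 2 +
    (B2 * (48 * B4 - 2 * B2 ^ 2) - 4 * (36 * B6 - 2 * B2 * B4)) * x +
    (64 * B4 ^ 2 - 2 * B2 ^ 2 * B4 - 12 * B2 * B6)

/-- `16 Δ = A f - B f'`. -/
lemma disc_identity (W : WeierstrassCurve K) (x : K) :
    16 * W.Δ = cofA W.b₂ W.b₄ W.b₆ x * cf W.b₂ W.b₄ W.b₆ x -
      cofB W.b₂ W.b₄ W.b₆ x * cf1 W.b₂ W.b₄ x := by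
  have h := W.b_relation
  simp only [WeierstrassCurve.Δ, cofA, cofB, cf, cf1]
  linear_combination (-4 * W.b₂ ^ 2) * h

section Mem

variable (A : ValuationSubring K) {B2 B4 B6 x a : K}

lemma cofA_mem (h2 : B2 ∈ A) (h4 : B4 ∈ A) (h6 : B6 ∈ A) (hx : x ∈ A) :
    cofA B2 B4 B6 x ∈ A := by
  simp only [cofA]
  have h12 : (12 : K) ∈ A := ofNat_mem A 12
  have h48 : (48 : K) ∈ A := ofNat_mem A 48
  have h36 : (36 : K) ∈ A := ofNat_mem A 36
  have h2' : (2 : K) ∈ A := ofNat_mem A 2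
  aesop (add safe apply [add_mem, mul_mem, neg_mem, pow_mem, sub_mem])

lemma cofB_mem (h2 : B2 ∈ A) (h4 : B4 ∈ A) (h6 : B6 ∈ A) (hx : x ∈ A) :
    cofB B2 B4 B6 x ∈ A := by
  simp only [cofB]
  have h12 : (12 : K) ∈ A := ofNat_mem A 12
  have h48 : (48 : K) ∈ A := ofNat_mem A 48
  have h36 : (36 : K) ∈ A := ofNat_mem A 36
  have h64 : (64 : K) ∈ A := ofNat_mem A 64
  have h2' : (2 : K) ∈ A := ofNat_mem A 2
  have h4' : (4 : K) ∈ A := ofNat_mem A 4
  aesop (add safe apply [add_mem, mul_mem, neg_mem, pow_mem, sub_mem])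

lemma cf1_mem' (h2 : B2 ∈ A) (h4 : B4 ∈ A) (hx : x ∈ A) : cf1 B2 B4 x ∈ A := by
  simp only [cf1]
  have h12 : (12 : K) ∈ A := ofNat_mem A 12
  have h2' : (2 : K) ∈ A := ofNat_mem A 2
  aesop (add safe apply [add_mem, mul_mem, neg_mem, pow_mem, sub_mem])

lemma chord_mem (h2 : B2 ∈ A) (h4 : B4 ∈ A) (hx : x ∈ A) (ha : a ∈ A) :
    -(4 * (x ^ 2 + x * a + a ^ 2) + B2 * (x + a) + 2 * B4) ∈ A := by
  have h2' : (2 : K) ∈ A := ofNat_mem A 2
  have h4' : (4 : K) ∈ A := ofNat_mem A 4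
  aesop (add safe apply [add_mem, mul_mem, neg_mem, pow_mem, sub_mem])

end Mem

end Disc

/-! ### the curve over `ℚ̄` -/

section Curve

variable (W : WeierstrassCurve ℤ)

/-- the rational curve of the integral model -/
abbrev EQ : WeierstrassCurve ℚ := W.map (Int.castRingHom ℚ)

lemma baseChange_eq : ((EQ W)⁄Qbar) = W.map (Int.castRingHom Qbar) := by
  change ((W.map (Int.castRingHom ℚ)).map (algebraMap ℚ Qbar)) = _
  rw [WeierstrassCurve.map_map]
  congr 1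

lemma b₂_eq : ((EQ W)⁄Qbar).b₂ = ((W.b₂ : ℤ) : Qbar) := by
  rw [baseChange_eq, WeierstrassCurve.map_b₂]; rfl

lemma b₄_eq : ((EQ W)⁄Qbar).b₄ = ((W.b₄ : ℤ) : Qbar) := by
  rw [baseChange_eq, WeierstrassCurve.map_b₄]; rfl

lemma b₆_eq : ((EQ W)⁄Qbar).b₆ = ((W.b₆ : ℤ) : Qbar) := by
  rw [baseChange_eq, WeierstrassCurve.map_b₆]; rfl

lemma Δ_eq : ((EQ W)⁄Qbar).Δ = ((W.Δ : ℤ) : Qbar) := by
  rw [baseChange_eq, WeierstrassCurve.map_Δ]; rfl

lemma tors_eq (k : ℕ) :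
    tors ((EQ W)⁄Qbar) k = (tors W k).map (Int.castRingHom Qbar) := by
  rw [baseChange_eq, map_tors]

open scoped Pointwise

/-- an automorphism stabilising `A` preserves its maximal ideal -/
lemma val_apply_lt_one {A : ValuationSubring Qbar} {σ : Qbar ≃ₐ[ℚ] Qbar} (hσ : σ • A = A)
    {x : Qbar} (hx : A.valuation x < 1) : A.valuation (σ x) < 1 := by
  have h1 : x ∈ A.nonunits := A.mem_nonunits_iff.mpr hx
  have h2 := (Fermat.Agent.S13.ValSubringZbar.apply_mem_nonunits_smul_iff A σ).mpr h1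
  rw [hσ] at h2
  exact A.mem_nonunits_iff.mp h2

variable {W}

/-- **Lifting**: from integers `a, e` with `ℓ ∣ T(a)` and `ℓ ∣ e² - f(a)` to a nonzero `p`-torsion
point of `W_ℚ̄` fixed by every element of the decomposition group of `A`. -/
theorem exists_fixed_point {p ℓ : ℕ} (hp : p.Prime) (hp2 : p ≠ 2) (hℓ : ℓ.Prime) (hℓ2 : ℓ ≠ 2)
    (hℓp : ℓ ≠ p) (hgood : ¬ (ℓ : ℤ) ∣ W.Δ) (A : ValuationSubring Qbar)
    (hA : A.LiesOverPrime ℓ) {a e : ℤ} (ha : (ℓ : ℤ) ∣ (tors W (p / 2)).eval a)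
    (he : (ℓ : ℤ) ∣ e ^ 2 - (4 * a ^ 3 + W.b₂ * a ^ 2 + 2 * W.b₄ * a + W.b₆))
    (σ : Qbar ≃ₐ[ℚ] Qbar) (hσ : σ • A = A) :
    ∃ P : ((EQ W)⁄Qbar).toAffine.Point, P ≠ 0 ∧ p • P = 0 ∧ σ • P = P := by
  -- valuations
  have h2 : A.valuation (2 : Qbar) = 1 := frey_val_two A hℓ hℓ2 hA
  have hpv : A.valuation (p : Qbar) = 1 := frey_val_natCast_prime A hℓ hp hℓp hA
  have hb2 : ((EQ W)⁄Qbar).b₂ ∈ A := by rw [b₂_eq]; exact intCast_mem A _
  have hb4 : ((EQ W)⁄Qbar).b₄ ∈ A := by rw [b₄_eq]; exact intCast_mem A _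
  have hb6 : ((EQ W)⁄Qbar).b₆ ∈ A := by rw [b₆_eq]; exact intCast_mem A _
  have hΔv : A.valuation ((EQ W)⁄Qbar).Δ = 1 := by
    rw [Δ_eq]; exact frey_val_int_eq_one A hℓ hA hgood
  have hΔ0 : ((EQ W)⁄Qbar).Δ ≠ 0 := by
    intro h
    rw [h, map_zero] at hΔv
    exact zero_ne_one hΔv
  have hnum : ∀ n : ℕ, (n : Qbar) ∈ A := fun n => natCast_mem A n
  have h2A : (2 : Qbar) ∈ A := ofNat_mem A 2
  have h4A : (4 : Qbar) ∈ A := ofNat_mem A 4
  -- the division polynomial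
  have hk₀ : 1 ≤ p / 2 := one_le_half hp hp2
  have hpk : 2 * (p / 2) + 1 = p := two_mul_half_add_one hp hp2
  have hfmap : tors ((EQ W)⁄Qbar) (p / 2) = (tors W (p / 2)).map (Int.castRingHom Qbar) :=
    tors_eq W (p / 2)
  have hlc : A.valuation (tors ((EQ W)⁄Qbar) (p / 2)).leadingCoeff = 1 := by
    rw [leadingCoeff_tors _ _ hk₀, hpk]; exact hpv
  have hlcZ : (tors W (p / 2)).leadingCoeff = (p : ℤ) := by
    rw [leadingCoeff_tors_of_ne W _ hk₀ (by rw [hpk]; exact_mod_cast hp.ne_zero), hpk]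
  have hroots : ∀ r, (tors ((EQ W)⁄Qbar) (p / 2)).eval r = 0 → r ∈ A := by
    intro r hr
    refine root_mem A (f := tors W (p / 2)) ?_ (by rw [← hfmap]; exact hr)
    rw [hlcZ]
    simpa using hpv
  have haA : (a : Qbar) ∈ A := intCast_mem A a
  have heA : (e : Qbar) ∈ A := intCast_mem A e
  have hfa : A.valuation ((tors ((EQ W)⁄Qbar) (p / 2)).eval (a : Qbar)) < 1 := by
    rw [hfmap, eval_intCast_map]
    exact frey_val_int_lt_one A hA ha
  obtain ⟨r, hr0, hra⟩ := exists_root_near A hlc hroots haA hfa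
  have hrA : r ∈ A := hroots r hr0
  -- a point above `r`
  obtain ⟨P₁, hP₁⟩ := exists_point_of_x ((EQ W)⁄Qbar) hΔ0 r
  obtain ⟨η₁, hη₁, hsq₁⟩ := exists_peta_of_px hP₁
  have hη₁A : η₁ ∈ A := peta_mem hb2 hb4 hb6 hP₁ hη₁ hrA
  -- `η₁ ≡ ± e`
  have hprod : A.valuation ((η₁ - e) * (η₁ + e)) < 1 := by
    have e1 : (η₁ - e) * (η₁ + e) =
        (cf ((EQ W)⁄Qbar).b₂ ((EQ W)⁄Qbar).b₄ ((EQ W)⁄Qbar).b₆ r -
          cf ((EQ W)⁄Qbar).b₂ ((EQ W)⁄Qbar).b₄ ((EQ W)⁄Qbar).b₆ a) -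
        ((e : Qbar) ^ 2 - cf ((EQ W)⁄Qbar).b₂ ((EQ W)⁄Qbar).b₄ ((EQ W)⁄Qbar).b₆ a) := by
      rw [← hsq₁]; ring
    rw [e1]
    refine val_sub_lt_one A ?_ ?_
    · have e2 : cf ((EQ W)⁄Qbar).b₂ ((EQ W)⁄Qbar).b₄ ((EQ W)⁄Qbar).b₆ r -
          cf ((EQ W)⁄Qbar).b₂ ((EQ W)⁄Qbar).b₄ ((EQ W)⁄Qbar).b₆ a =
          (a - r) * (-(4 * (r ^ 2 + r * a + a ^ 2) + ((EQ W)⁄Qbar).b₂ * (r + a) +
            2 * ((EQ W)⁄Qbar).b₄)) := by
        simp only [cf]; ring
      rw [e2]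
      exact val_mul_lt_one_left A hra (chord_mem A hb2 hb4 hrA haA)
    · have e3 : (e : Qbar) ^ 2 - cf ((EQ W)⁄Qbar).b₂ ((EQ W)⁄Qbar).b₄ ((EQ W)⁄Qbar).b₆ a =
          ((e ^ 2 - (4 * a ^ 3 + W.b₂ * a ^ 2 + 2 * W.b₄ * a + W.b₆) : ℤ) : Qbar) := by
        rw [b₂_eq, b₄_eq, b₆_eq]
        simp only [cf]
        push_cast
        ring
      rw [e3]
      exact frey_val_int_lt_one A hA he
  -- choose the sign
  obtain ⟨P, η, hP, hη, hηe⟩ : ∃ (P : ((EQ W)⁄Qbar).toAffine.Point) (η : Qbar),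
      px ((EQ W)⁄Qbar) P = some r ∧ peta ((EQ W)⁄Qbar) P = some η ∧
        A.valuation (η - e) < 1 := by
    rcases val_lt_one_of_mul A (sub_mem hη₁A heA) (add_mem hη₁A heA) hprod with h | h
    · exact ⟨P₁, η₁, hP₁, hη₁, h⟩
    · refine ⟨-P₁, -η₁, by rw [px_neg]; exact hP₁, peta_neg_of_some hη₁, ?_⟩
      have : -η₁ - (e : Qbar) = -(η₁ + e) := by ring
      rw [this, Valuation.map_neg]
      exact h
  have hηA : η ∈ A := peta_mem hb2 hb4 hb6 hP hη hrA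
  have hsq : η ^ 2 = cf ((EQ W)⁄Qbar).b₂ ((EQ W)⁄Qbar).b₄ ((EQ W)⁄Qbar).b₆ r := peta_sq hP hη
  have hP0 : P ≠ 0 := ne_zero_of_px hP
  have hpP : p • P = 0 := (prime_nsmul_eq_zero_iff hp hp2 hP).mpr hr0
  refine ⟨P, hP0, hpP, ?_⟩
  -- nonsingular reduction
  have hns : A.valuation η = 1 ∨ A.valuation (cf1 ((EQ W)⁄Qbar).b₂ ((EQ W)⁄Qbar).b₄ r) = 1 := by
    by_contra hcon
    rw [not_or] at hcon
    have hcf1A : cf1 ((EQ W)⁄Qbar).b₂ ((EQ W)⁄Qbar).b₄ r ∈ A := cf1_mem' A hb2 hb4 hrA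
    have hη1 : A.valuation η < 1 :=
      lt_of_le_of_ne ((A.valuation_le_one_iff _).mpr hηA) hcon.1
    have hc1 : A.valuation (cf1 ((EQ W)⁄Qbar).b₂ ((EQ W)⁄Qbar).b₄ r) < 1 :=
      lt_of_le_of_ne ((A.valuation_le_one_iff _).mpr hcf1A) hcon.2
    have hcfv : A.valuation (cf ((EQ W)⁄Qbar).b₂ ((EQ W)⁄Qbar).b₄ ((EQ W)⁄Qbar).b₆ r) < 1 := by
      rw [← hsq, pow_two]
      exact val_mul_lt_one_left A hη1 hηA
    have hAm : cofA ((EQ W)⁄Qbar).b₂ ((EQ W)⁄Qbar).b₄ ((EQ W)⁄Qbar).b₆ r ∈ A :=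
      cofA_mem A hb2 hb4 hb6 hrA
    have hBm : cofB ((EQ W)⁄Qbar).b₂ ((EQ W)⁄Qbar).b₄ ((EQ W)⁄Qbar).b₆ r ∈ A :=
      cofB_mem A hb2 hb4 hb6 hrA
    have h16 : A.valuation (16 * ((EQ W)⁄Qbar).Δ) = 1 := by
      have : (16 : Qbar) = 2 ^ 4 := by norm_num
      rw [map_mul, this, map_pow, h2, one_pow, one_mul, hΔv]
    rw [disc_identity ((EQ W)⁄Qbar) r] at h16
    have hlt : A.valuation (cofA ((EQ W)⁄Qbar).b₂ ((EQ W)⁄Qbar).b₄ ((EQ W)⁄Qbar).b₆ r *
        cf ((EQ W)⁄Qbar).b₂ ((EQ W)⁄Qbar).b₄ ((EQ W)⁄Qbar).b₆ r -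
        cofB ((EQ W)⁄Qbar).b₂ ((EQ W)⁄Qbar).b₄ ((EQ W)⁄Qbar).b₆ r *
          cf1 ((EQ W)⁄Qbar).b₂ ((EQ W)⁄Qbar).b₄ r) < 1 := by
      refine val_sub_lt_one A ?_ ?_
      · rw [mul_comm]; exact val_mul_lt_one_left A hcfv hAm
      · rw [mul_comm]; exact val_mul_lt_one_left A hc1 hBm
    rw [h16] at hlt
    exact lt_irrefl _ hlt
  -- `σ P` is congruent to `P`
  have hP' : px ((EQ W)⁄Qbar) (σ • P) = some (σ r) := by
    rw [px_galois, hP]; rfl
  have hη' : peta ((EQ W)⁄Qbar) (σ • P) = some (σ η) := by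
    rw [peta_galois, hη]; rfl
  have hdx : A.valuation (σ r - r) < 1 := by
    have e4 : σ r - r = (a - r) - σ (a - r) := by
      rw [map_sub, map_intCast]; ring
    rw [e4]
    exact val_sub_lt_one A hra (val_apply_lt_one hσ hra)
  have hdη : A.valuation (σ η - η) < 1 := by
    have e5 : σ η - η = σ (η - e) - (η - e) := by
      rw [map_sub, map_intCast]; ring
    rw [e5]
    exact val_sub_lt_one A (val_apply_lt_one hσ hηe) hηe
  have hker : InKer A ((EQ W)⁄Qbar) (σ • P - P) :=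
    sub_inKer_of_congr h2 hb2 hb4 hb6 hP hη hP' hη' hrA hdx hdη hns
  exact smul_eq_of_sub_inKer (EQ W) A h2 hb2 hb4 hb6 hpv σ hpP hker

end Curve

/-! ### the finite field side: Cauchy -/

section FiniteField

variable (W : WeierstrassCurve ℤ)

/-- the square of `2y + a₁x + a₃` on the curve, over any commutative ring -/
lemma eta_sq_of_equation {R : Type*} [CommRing R] (V : WeierstrassCurve R) {x y : R}
    (h : V.toAffine.Equation x y) :
    (2 * y + V.a₁ * x + V.a₃) ^ 2 = 4 * x ^ 3 + V.b₂ * x ^ 2 + 2 * V.b₄ * x + V.b₆ := by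
  rw [Affine.equation_iff] at h
  simp only [WeierstrassCurve.b₂, WeierstrassCurve.b₄, WeierstrassCurve.b₆]
  linear_combination 4 * h

/-- **Cauchy**: if `p` divides `a_ℓ - (ℓ + 1)` there are integers `a, e` with `ℓ ∣ T(a)` (`T` the
`p`-division polynomial of `W`) and `ℓ ∣ e² - f(a)` (`f` the `2`-division cubic). -/
theorem exists_int_data {p ℓ : ℕ} (hp : p.Prime) (hp2 : p ≠ 2) (hℓ : ℓ.Prime)
    (hdvd : (p : ℤ) ∣ W.apOfModel ℓ - (ℓ + 1)) :
    ∃ a e : ℤ, (ℓ : ℤ) ∣ (tors W (p / 2)).eval a ∧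
      (ℓ : ℤ) ∣ e ^ 2 - (4 * a ^ 3 + W.b₂ * a ^ 2 + 2 * W.b₄ * a + W.b₆) := by
  have : Fact ℓ.Prime := ⟨hℓ⟩
  have : Fact p.Prime := ⟨hp⟩
  classical
  -- `p` divides the number of points
  have hcard : p ∣ Nat.card (W.reductionMod ℓ).toAffine.Point := by
    have h1 : W.apOfModel ℓ =
        (ℓ : ℤ) + 1 - (Nat.card (W.reductionMod ℓ).toAffine.Point : ℤ) := by
      simp [WeierstrassCurve.apOfModel, WeierstrassCurve.traceOfFrobenius, WeierstrassCurve.card]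
    rw [h1] at hdvd
    have h2 : (p : ℤ) ∣ (Nat.card (W.reductionMod ℓ).toAffine.Point : ℤ) := by
      have h3 := dvd_neg.mpr hdvd
      have e1 : -((ℓ : ℤ) + 1 - (Nat.card (W.reductionMod ℓ).toAffine.Point : ℤ) - (ℓ + 1)) =
          (Nat.card (W.reductionMod ℓ).toAffine.Point : ℤ) := by ring
      rwa [e1] at h3
    exact_mod_cast h2
  obtain ⟨P, hP⟩ := exists_prime_addOrderOf_dvd_card' p hcard
  have hpP : p • P = 0 := by rw [← hP]; exact addOrderOf_nsmul_eq_zero P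
  have hP0 : P ≠ 0 := by
    rintro rfl
    rw [addOrderOf_zero] at hP
    exact hp.one_lt.ne hP
  -- coordinates
  cases P with
  | zero => exact absurd rfl hP0
  | some x y h =>
    have hk₀ : 1 ≤ p / 2 := one_le_half hp hp2
    have hpk : 2 * (p / 2) + 1 = p := two_mul_half_add_one hp hp2
    -- the division polynomial vanishes at `x`
    have hD : (ladD (W.reductionMod ℓ) p).eval x = 0 := by
      rw [eval_ladD]
      rcases spec (W.reductionMod ℓ).toAffine h p hp.one_le with ⟨_, hD, _⟩ | ⟨x', y', h', hP', _, _⟩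
      · exact hD
      · rw [hpP] at hP'
        exact absurd hP'.symm (Point.some_ne_zero h')
    have hT : (tors (W.reductionMod ℓ) (p / 2)).eval x = 0 := by
      have h1 : ladD (W.reductionMod ℓ) p = tors (W.reductionMod ℓ) (p / 2) ^ 2 := by
        rw [← ladD_odd _ _ hk₀, hpk]
      rw [h1, eval_pow] at hD
      exact pow_eq_zero_iff (two_ne_zero) |>.mp hD
    obtain ⟨a, rfl⟩ := ZMod.intCast_surjective x
    obtain ⟨b, rfl⟩ := ZMod.intCast_surjective y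
    refine ⟨a, 2 * b + W.a₁ * a + W.a₃, ?_, ?_⟩
    · rw [← ZMod.intCast_zmod_eq_zero_iff_dvd]
      have h1 : tors (W.reductionMod ℓ) (p / 2) =
          (tors W (p / 2)).map (Int.castRingHom (ZMod ℓ)) := by
        rw [map_tors]; rfl
      rw [h1, eval_intCast_map] at hT
      exact hT
    · rw [← ZMod.intCast_zmod_eq_zero_iff_dvd]
      have h1 := eta_sq_of_equation (W.reductionMod ℓ) h.1
      have ha₁ : (W.reductionMod ℓ).a₁ = ((W.a₁ : ℤ) : ZMod ℓ) := rfl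
      have ha₃ : (W.reductionMod ℓ).a₃ = ((W.a₃ : ℤ) : ZMod ℓ) := rfl
      have hb₂ : (W.reductionMod ℓ).b₂ = ((W.b₂ : ℤ) : ZMod ℓ) := by
        rw [WeierstrassCurve.reductionMod, WeierstrassCurve.map_b₂]; rfl
      have hb₄ : (W.reductionMod ℓ).b₄ = ((W.b₄ : ℤ) : ZMod ℓ) := by
        rw [WeierstrassCurve.reductionMod, WeierstrassCurve.map_b₄]; rfl
      have hb₆ : (W.reductionMod ℓ).b₆ = ((W.b₆ : ℤ) : ZMod ℓ) := by
        rw [WeierstrassCurve.reductionMod, WeierstrassCurve.map_b₆]; rfl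
      rw [ha₁, ha₃, hb₂, hb₄, hb₆] at h1
      push_cast
      linear_combination h1

end FiniteField

/-! ### the main statements -/

section Main

open scoped Pointwise

variable (W : WeierstrassCurve ℤ)

/-- **N4 + N5.**  Let `ℓ ∤ 2pΔ` and `p ∣ a_ℓ - (ℓ + 1)`.  Then every automorphism stabilising a
valuation subring `A` of `ℚ̄` over `ℓ` fixes a nonzero vector of `E[p](ℚ̄)`, `E = W_ℚ`. -/
theorem exists_fixed_vector_of_stabilizer {p ℓ : ℕ} (hp : p.Prime) (hp2 : p ≠ 2) (hℓ : ℓ.Prime)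
    (hℓ2 : ℓ ≠ 2) (hℓp : ℓ ≠ p) (hgood : W.IsGoodPrimeFor ℓ)
    (hdvd : (p : ℤ) ∣ W.apOfModel ℓ - (ℓ + 1)) (A : ValuationSubring Qbar)
    (hA : A.LiesOverPrime ℓ) (σ : Qbar ≃ₐ[ℚ] Qbar) (hσ : σ • A = A) :
    ∃ v : Submodule.torsionBy ℤ ((W.map (Int.castRingHom ℚ))⁄Qbar).Point p,
      v ≠ 0 ∧ σ • v = v := by
  obtain ⟨a, e, ha, he⟩ := exists_int_data W hp hp2 hℓ hdvd
  obtain ⟨P, hP0, hpP, hσP⟩ := exists_fixed_point hp hp2 hℓ hℓ2 hℓp hgood A hA ha he σ hσ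
  have hmem : P ∈ Submodule.torsionBy ℤ ((W.map (Int.castRingHom ℚ))⁄Qbar).Point p := by
    rw [Submodule.mem_torsionBy_iff, natCast_zsmul]
    exact hpP
  refine ⟨⟨P, hmem⟩, ?_, ?_⟩
  · intro h
    exact hP0 (congrArg Subtype.val h)
  · exact Subtype.ext hσP

/-- **N4 + N5, Frobenius form.** -/
theorem exists_fixed_vector_of_frobenius {p ℓ : ℕ} (hp : p.Prime) (hp2 : p ≠ 2) (hℓ : ℓ.Prime)
    (hℓ2 : ℓ ≠ 2) (hℓp : ℓ ≠ p) (hgood : W.IsGoodPrimeFor ℓ)
    (hdvd : (p : ℤ) ∣ W.apOfModel ℓ - (ℓ + 1)) (A : ValuationSubring Qbar)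
    (hA : A.LiesOverPrime ℓ) (σ : Qbar ≃ₐ[ℚ] Qbar) (hσ : A.IsFrobeniusAt σ ℓ) :
    ∃ v : Submodule.torsionBy ℤ ((W.map (Int.castRingHom ℚ))⁄Qbar).Point p,
      v ≠ 0 ∧ σ • v = v :=
  exists_fixed_vector_of_stabilizer W hp hp2 hℓ hℓ2 hℓp hgood hdvd A hA σ
    (MulAction.mem_stabilizer_iff.mp hσ.mem_decompositionSubgroup)

end Main

end Fermat.Agent.S41.NonEis.RedTorsion
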