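import Fermat.Agent.S41.NonEis.Main
import Fermat.Agent.S41.NonEis.RedTorsion

/-!
# S41 / L4: the block `BlockNonEis`, unconditionally

`Main.blockNonEis_of_red` (helper24) reduces `Skel.BlockNonEis` to the local statement
`Main.RedStmt`, which is `RedTorsion.exists_fixed_vector_of_frobenius`.
-/

set_option autoImplicit false

namespace Fermat.Agent.S41.NonEis.Block

/-- the local statement at good primes (N4 + N5) -/
theorem redStmt : Fermat.Agent.S41.NonEis.Main.RedStmt :=
  fun W _ _ hp hp2 hℓ hℓ2 hℓp hg hd A hA σ hσ =>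
    Fermat.Agent.S41.NonEis.RedTorsion.exists_fixed_vector_of_frobenius W hp hp2 hℓ hℓ2 hℓp hg hd
      A hA σ hσ

/-- **L4**: an irreducible `E[p]` is not Eisenstein: some good prime `ℓ ∤ M`, `ℓ ≠ p`, has
`a_ℓ ≢ ℓ + 1 (mod p)`. -/
theorem blockNonEis : Fermat.Agent.S41.Skel.BlockNonEis :=
  Fermat.Agent.S41.NonEis.Main.blockNonEis_of_red redStmt

end Fermat.Agent.S41.NonEis.Block
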