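import Mathlib
import Fermat.Prelude.Def_FLTPrelim_Modularity

/-!
# S41 / L4 (N5): a point of order `p` on the reduction when `a_ℓ ≡ ℓ + 1 (mod p)`

`W.apOfModel ℓ - (ℓ + 1) = - #W̃(𝔽_ℓ)`; so `p ∣ a_ℓ - (ℓ + 1)` gives, by Cauchy's theorem, an affine
point `(x, y)` of `W̃ = W.reductionMod ℓ` over `ZMod ℓ` with `p • (x, y) = 0`.
-/

set_option autoImplicit false

namespace Fermat.Agent.S41.NonEis.Cauchy

open WeierstrassCurve WeierstrassCurve.Affine

variable (W : WeierstrassCurve ℤ) {p ℓ : ℕ}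

/-- `a_ℓ - (ℓ + 1) = - #W̃(𝔽_ℓ)` -/
theorem apOfModel_sub (hℓ : ℓ.Prime) :
    W.apOfModel ℓ - ((ℓ : ℤ) + 1) = -(Nat.card (W.reductionMod ℓ).toAffine.Point : ℤ) := by
  have : NeZero ℓ := ⟨hℓ.ne_zero⟩
  simp only [apOfModel, traceOfFrobenius, card, Nat.card_zmod]
  ring

/-- **Cauchy**: a point of order `p` on the reduction. -/
theorem exists_point_of_dvd [Fact ℓ.Prime] (hp : p.Prime)
    (hdvd : (p : ℤ) ∣ W.apOfModel ℓ - ((ℓ : ℤ) + 1)) :
    ∃ (x y : ZMod ℓ) (h : (W.reductionMod ℓ).toAffine.Nonsingular x y),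
      p • (Point.some x y h : (W.reductionMod ℓ).toAffine.Point) = 0 := by
  have hℓ : ℓ.Prime := Fact.out
  rw [apOfModel_sub W hℓ, dvd_neg, Int.natCast_dvd_natCast] at hdvd
  have : Fact p.Prime := ⟨hp⟩
  obtain ⟨P, hP⟩ := exists_prime_addOrderOf_dvd_card' (G := (W.reductionMod ℓ).toAffine.Point) p hdvd
  have hpP : p • P = 0 := by rw [← hP]; exact addOrderOf_nsmul_eq_zero P
  cases P with
  | zero =>
    exfalso
    have h1 : addOrderOf (0 : (W.reductionMod ℓ).toAffine.Point) = 1 := addOrderOf_zero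
    have h0 : (Point.zero : (W.reductionMod ℓ).toAffine.Point) = 0 := rfl
    rw [h0, h1] at hP
    exact hp.one_lt.ne hP
  | some x y h => exact ⟨x, y, h, hpP⟩

end Fermat.Agent.S41.NonEis.Cauchy
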