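import Mathlib

/-!
# S41 / L4 (N1): a group acting on a plane over `𝔽_p` all of whose elements have a nonzero fixed
vector stabilises a line

`exists_stable_line`: `p` prime, `V` a `ZMod p`-module with `p ^ 2` elements, `G` a group acting on
`V` by additive maps.  If every `g : G` fixes some nonzero vector, then there is a submodule
`N ≠ ⊥, ⊤` stable under `G`.

Proof: `D := det ∘ ρ : G →* ZMod p`.  An element `u` with `D u = 1` and a nonzero fixed vector is
unipotent (`(u - 1)² = 0`, Cayley–Hamilton in dimension two).  If two such elements `u, u'` act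
nontrivially, their fixed lines coincide (otherwise `u u'` has no nonzero fixed vector).  So either
`U := ker D` acts nontrivially and `V^U` is a line, stable because `U` is normal; or `U` acts
trivially, the image of `G` is commutative, and the fixed line of any nontrivially acting element
is stable.
-/

set_option autoImplicit false

namespace Fermat.Agent.S41.NonEis.FixedVector

open Module Polynomial

section CH

variable {K : Type*} [Field K] {V : Type*} [AddCommGroup V] [Module K V] [Module.Finite K V]

/-- Cayley–Hamilton in dimension two. -/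
theorem sq_sub_trace_add_det (h2 : finrank K V = 2) (f : Module.End K V) (x : V) :
    f (f x) - LinearMap.trace K V f • f x + LinearMap.det f • x = 0 := by
  have h1 : LinearMap.charpoly f =
      X ^ 2 - C (LinearMap.trace K V f) * X + C (LinearMap.det f) := by
    let b : Module.Basis (Fin 2) K V := Module.finBasisOfFinrankEq K V h2
    rw [← LinearMap.charpoly_toMatrix f b, Matrix.charpoly_fin_two,
      ← LinearMap.trace_eq_matrix_trace K b f, LinearMap.det_toMatrix b f]
  have h := LinearMap.aeval_self_charpoly f
  rw [h1] at h
  have hx := congrArg (fun g : Module.End K V => g x) h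
  simpa [pow_two, Algebra.smul_def, sub_eq_add_neg] using hx

/-- an endomorphism of a plane with determinant one and a nonzero fixed vector is unipotent -/
theorem unipotent_of_fixed (h2 : finrank K V = 2) (f : Module.End K V)
    (hdet : LinearMap.det f = 1) {v : V} (hv : v ≠ 0) (hfv : f v = v) (x : V) :
    f (f x) - (2 : K) • f x + x = 0 := by
  have hv' := sq_sub_trace_add_det h2 f v
  rw [hfv, hfv, hdet, one_smul] at hv'
  have ht : LinearMap.trace K V f = 2 := by
    have : ((2 : K) - LinearMap.trace K V f) • v = 0 := by
      rw [sub_smul, two_smul]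
      have e : v + v - LinearMap.trace K V f • v = v - LinearMap.trace K V f • v + v := by abel
      rw [e]; exact hv'
    rcases smul_eq_zero.mp this with h | h
    · linear_combination -h
    · exact absurd h hv
  have hx := sq_sub_trace_add_det h2 f x
  rwa [ht, hdet, one_smul] at hx

end CH

section Main

variable {p : ℕ} [Fact p.Prime] {G V : Type*} [Group G] [AddCommGroup V] [Module (ZMod p) V]
  [DistribMulAction G V]

/-- additive actions commute with the `ZMod p`-scalars -/
instance (priority := 50) smulCommClass_zmod : SMulCommClass G (ZMod p) V where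
  smul_comm g c x := ZMod.map_smul (DistribSMul.toAddMonoidHom V g) c x

/-- the determinant character of the action -/
noncomputable def detChar (p : ℕ) [Fact p.Prime] (V : Type*) [AddCommGroup V] [Module (ZMod p) V]
    [DistribMulAction G V] : G →* ZMod p :=
  LinearMap.det.comp (DistribMulAction.toModuleEnd (ZMod p) V)

/-- the fixed space of `g` -/
def fixSub (p : ℕ) [Fact p.Prime] (V : Type*) [AddCommGroup V] [Module (ZMod p) V]
    [DistribMulAction G V] (g : G) : Submodule (ZMod p) V where
  carrier := {x | g • x = x}
  add_mem' := by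
    intro a b ha hb
    show g • (a + b) = a + b
    rw [smul_add, show g • a = a from ha, show g • b = b from hb]
  zero_mem' := smul_zero g
  smul_mem' := by
    intro c x hx
    show g • (c • x) = c • x
    rw [smul_comm, show g • x = x from hx]

@[simp] lemma mem_fixSub {g : G} {x : V} : x ∈ fixSub p V g ↔ g • x = x := Iff.rfl

variable [Finite V]

lemma finrank_eq_two (hcard : Nat.card V = p ^ 2) : finrank (ZMod p) V = 2 := by
  have hp : 1 < p := (Fact.out : p.Prime).one_lt
  have h := Module.natCard_eq_pow_finrank (K := ZMod p) (V := V)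
  rw [Nat.card_zmod, hcard] at h
  exact (Nat.pow_right_injective hp h).symm

/-- an element of determinant one with a nonzero fixed vector is unipotent -/
lemma unipotent (hcard : Nat.card V = p ^ 2) {u : G} (hu : detChar p V u = 1)
    {v : V} (hv : v ≠ 0) (huv : u • v = v) (x : V) :
    u • (u • x - x) = u • x - x := by
  have h := unipotent_of_fixed (K := ZMod p) (finrank_eq_two hcard)
    (DistribMulAction.toModuleEnd (ZMod p) V u) hu hv huv x
  change u • (u • x) - (2 : ZMod p) • (u • x) + x = 0 at h
  rw [smul_sub]
  rw [two_smul] at h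
  have : u • u • x - u • x - (u • x - x) = u • u • x - (u • x + u • x) + x := by abel
  exact sub_eq_zero.mp (this ▸ h)

/-- the fixed space of a nontrivially acting element with a nonzero fixed vector is a line -/
lemma finrank_fixSub (hcard : Nat.card V = p ^ 2) {g : G} {v : V} (hv : v ≠ 0) (hgv : g • v = v)
    {x0 : V} (hx0 : g • x0 ≠ x0) : finrank (ZMod p) (fixSub p V g) = 1 := by
  have h2 := finrank_eq_two (p := p) hcard
  have htop : fixSub p V g ≠ ⊤ := by
    intro h
    have : x0 ∈ fixSub p V g := h ▸ Submodule.mem_top
    exact hx0 this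
  have hbot : fixSub p V g ≠ ⊥ := by
    intro h
    have : v ∈ fixSub p V g := hgv
    rw [h, Submodule.mem_bot] at this
    exact hv this
  have hlt : finrank (ZMod p) (fixSub p V g) < finrank (ZMod p) V := Submodule.finrank_lt htop
  have hpos : 0 < finrank (ZMod p) (fixSub p V g) := by
    rw [Module.finrank_pos_iff, Submodule.nontrivial_iff_ne_bot]
    exact hbot
  omega

/-- two lines sharing a nonzero vector are equal -/
lemma eq_of_finrank_one {L L' : Submodule (ZMod p) V} (hL : finrank (ZMod p) L = 1)
    (hL' : finrank (ZMod p) L' = 1) {x : V} (hx : x ≠ 0) (hxL : x ∈ L) (hxL' : x ∈ L') :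
    L = L' := by
  have hs : finrank (ZMod p) (Submodule.span (ZMod p) {x}) = 1 := finrank_span_singleton hx
  have h1 : Submodule.span (ZMod p) {x} = L :=
    Submodule.eq_of_le_of_finrank_eq ((Submodule.span_singleton_le_iff_mem x L).mpr hxL)
      (hs.trans hL.symm)
  have h2 : Submodule.span (ZMod p) {x} = L' :=
    Submodule.eq_of_le_of_finrank_eq ((Submodule.span_singleton_le_iff_mem x L').mpr hxL')
      (hs.trans hL'.symm)
  rw [← h1, h2]

/-- two nontrivially acting unipotent elements whose product has a nonzero fixed vector have the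
same fixed line -/
lemma fixSub_eq_of_unipotent (hcard : Nat.card V = p ^ 2)
    (hfix : ∀ g : G, ∃ v : V, v ≠ 0 ∧ g • v = v) {u u' : G}
    (hu : detChar p V u = 1) (hu' : detChar p V u' = 1)
    {x0 : V} (hx0 : u • x0 ≠ x0) {x0' : V} (hx0' : u' • x0' ≠ x0') :
    fixSub p V u = fixSub p V u' := by
  obtain ⟨v, hv, huv⟩ := hfix u
  obtain ⟨v', hv', huv'⟩ := hfix u'
  have hL := finrank_fixSub (p := p) hcard hv huv hx0
  have hL' := finrank_fixSub (p := p) hcard hv' huv' hx0'
  by_contra hne
  -- the two lines meet trivially
  have hmeet : ∀ x : V, u • x = x → u' • x = x → x = 0 := by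
    intro x h1 h2
    by_contra hx
    exact hne (eq_of_finrank_one hL hL' hx h1 h2)
  -- a fixed vector of `u * u'`
  obtain ⟨x, hx, hux⟩ := hfix (u * u')
  rw [mul_smul] at hux
  have hn' : u' • (u' • x - x) = u' • x - x := unipotent (p := p) hcard hu' hv' huv' x
  have hn : u • (u • (u' • x) - u' • x) = u • (u' • x) - u' • x :=
    unipotent (p := p) hcard hu hv huv (u' • x)
  -- `u' x - x = -(u (u' x) - u' x)` lies in both lines
  have e : u' • x - x = -(u • (u' • x) - u' • x) := by rw [hux]; abel
  have h1 : u • (u' • x - x) = u' • x - x := by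
    rw [e, smul_neg, hn]
  have hz : u' • x - x = 0 := hmeet _ h1 hn'
  have hx' : u' • x = x := sub_eq_zero.mp hz
  rw [hx'] at hux
  exact hx (hmeet x hux hx')

/-- **A group acting on a plane over `𝔽_p`, all of whose elements have a nonzero fixed vector,
stabilises a line.** -/
theorem exists_stable_line (hcard : Nat.card V = p ^ 2)
    (hfix : ∀ g : G, ∃ v : V, v ≠ 0 ∧ g • v = v) :
    ∃ N : Submodule (ZMod p) V, N ≠ ⊥ ∧ N ≠ ⊤ ∧ ∀ g : G, ∀ x ∈ N, g • x ∈ N := by
  have h2 := finrank_eq_two (p := p) hcard
  have hD : ∀ g h : G, detChar p V (g⁻¹ * h * g) = detChar p V h := by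
    intro g h
    rw [map_mul, map_mul, mul_comm (detChar p V g⁻¹), mul_assoc, ← map_mul, inv_mul_cancel, map_one,
      mul_one]
  -- a nontrivially acting element gives a proper nonzero fixed space
  have hproper : ∀ g : G, ∀ x0 : V, g • x0 ≠ x0 →
      fixSub p V g ≠ ⊥ ∧ fixSub p V g ≠ ⊤ := by
    intro g x0 hx0
    obtain ⟨v, hv, hgv⟩ := hfix g
    refine ⟨fun h => ?_, fun h => ?_⟩
    · have : v ∈ fixSub p V g := hgv
      rw [h, Submodule.mem_bot] at this
      exact hv this
    · have : x0 ∈ fixSub p V g := h ▸ Submodule.mem_top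
      exact hx0 this
  by_cases hU : ∀ u : G, detChar p V u = 1 → ∀ x : V, u • x = x
  · by_cases hG : ∀ g : G, ∀ x : V, g • x = x
    · -- trivial action
      have hnt : Nontrivial V := by
        rw [← Module.finrank_pos_iff (R := ZMod p), h2]; norm_num
      obtain ⟨v, hv⟩ := exists_ne (0 : V)
      refine ⟨Submodule.span (ZMod p) {v}, ?_, ?_, ?_⟩
      · intro h
        have : v ∈ Submodule.span (ZMod p) {v} := Submodule.mem_span_singleton_self v
        rw [h, Submodule.mem_bot] at this
        exact hv this
      · intro h
        have h1 : finrank (ZMod p) (Submodule.span (ZMod p) {v}) = 1 := finrank_span_singleton hv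
        rw [h, finrank_top, h2] at h1
        omega
      · intro g x hx
        rwa [hG g x]
    · push Not at hG
      obtain ⟨g0, x0, hx0⟩ := hG
      refine ⟨fixSub p V g0, (hproper g0 x0 hx0).1, (hproper g0 x0 hx0).2, ?_⟩
      intro h x hx
      rw [mem_fixSub] at hx ⊢
      have hc : detChar p V (g0⁻¹ * h⁻¹ * g0 * h) = 1 := by
        rw [map_mul, map_mul, map_mul, mul_comm (detChar p V g0⁻¹), mul_assoc (detChar p V h⁻¹),
          ← map_mul, inv_mul_cancel, map_one, mul_one, ← map_mul, inv_mul_cancel, map_one]
      have h1 := hU _ hc x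
      rw [mul_smul, mul_smul, mul_smul] at h1
      -- `g0⁻¹ • h⁻¹ • g0 • h • x = x`
      have h2 : g0 • h • x = h • g0 • x := by
        have := congrArg (fun y => h • g0 • y) h1
        simpa [smul_smul, mul_assoc] using this
      rw [h2, hx]
  · push Not at hU
    obtain ⟨u0, hu0, x0, hx0⟩ := hU
    refine ⟨fixSub p V u0, (hproper u0 x0 hx0).1, (hproper u0 x0 hx0).2, ?_⟩
    intro g x hx
    rw [mem_fixSub] at hx ⊢
    have hu' : detChar p V (g⁻¹ * u0 * g) = 1 := by rw [hD, hu0]
    have key : (g⁻¹ * u0 * g) • x = x := by
      by_cases htriv : ∀ y : V, (g⁻¹ * u0 * g) • y = y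
      · exact htriv x
      · push Not at htriv
        obtain ⟨y0, hy0⟩ := htriv
        have := fixSub_eq_of_unipotent (p := p) hcard hfix hu0 hu' hx0 hy0
        have hx' : x ∈ fixSub p V (g⁻¹ * u0 * g) := this ▸ hx
        exact hx'
    rw [mul_smul, mul_smul] at key
    have := congrArg (fun y => g • y) key
    simpa [smul_smul] using this

end Main

end Fermat.Agent.S41.NonEis.FixedVector
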