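import Mathlib
import Fermat.Agent.S05.CongrGalois
import Fermat.Agent.S05.KernelPx
import Fermat.Agent.S37.Galois.RationalFix

/-!
# S41 / L4 (N4-top): a Frobenius lift fixes a `p`-torsion point whose reduction is `𝔽_ℓ`-rational

* `valuation_frob_sub_pow_lt_one`: a Frobenius lift `σ` at `A` satisfies `σ c ≡ c ^ ℓ` modulo the
  maximal ideal, for `c ∈ A`;
* `smul_eq_of_frobenius`: `E/ℚ` with `A`-integral `b`-invariants, `2` and `p` units of `A`, `P` a
  `p`-torsion point with integral abscissa `x` and nonsingular reduction; if `x ^ ℓ ≡ x` and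
  `η ^ ℓ ≡ η` modulo the maximal ideal (`η = 2y + a₁x + a₃`), then `σ • P = P`;
* `smul_eq_of_frobenius_of_int`: the same when `x`, `±η` are congruent to rational integers.
-/

set_option autoImplicit false

namespace Fermat.Agent.S41.NonEis.FrobFix

open WeierstrassCurve WeierstrassCurve.Affine IsLocalRing
open Fermat.Agent.S51 Fermat.Agent.S05

local notation "Qbar" => AlgebraicClosure ℚ

section Val

variable {K L : Type*} [Field K] [Field L] [Algebra K L] (A : ValuationSubring L)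

/-- an element of `A` whose residue vanishes has valuation `< 1` -/
theorem valuation_lt_one_of_residue_eq_zero {z : L} (hz : z ∈ A)
    (h : residue A ⟨z, hz⟩ = 0) : A.valuation z < 1 := by
  have hm : (⟨z, hz⟩ : A) ∈ maximalIdeal A := (residue_eq_zero_iff _).mp h
  exact (A.valuation_lt_one_iff ⟨z, hz⟩).mp hm

/-- a Frobenius lift is congruent to the `ℓ`-th power map on `A` -/
theorem valuation_frob_sub_pow_lt_one {σ : L ≃ₐ[K] L} {ℓ : ℕ} (hσ : A.IsFrobeniusAt σ ℓ) {c : L}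
    (hc : c ∈ A) : A.valuation (σ c - c ^ ℓ) < 1 := by
  have hσc : σ c ∈ A :=
    Fermat.Agent.S37.Galois.apply_mem_of_mem_decompositionSubgroup A hσ.mem_decompositionSubgroup hc
  have hres := Fermat.Agent.S37.Galois.residue_apply_of_isFrobeniusAt A hσ hc hσc
  have hmem : σ c - c ^ ℓ ∈ A := sub_mem hσc (pow_mem hc ℓ)
  apply valuation_lt_one_of_residue_eq_zero A hmem
  have e : (⟨σ c - c ^ ℓ, hmem⟩ : A) = ⟨σ c, hσc⟩ - ⟨c, hc⟩ ^ ℓ := rfl
  rw [e, map_sub, map_pow, hres, sub_self]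

end Val

section Main

variable (E : WeierstrassCurve ℚ) (A : ValuationSubring Qbar)

/-- **A Frobenius lift fixes a torsion point with `𝔽_ℓ`-rational nonsingular reduction.** -/
theorem smul_eq_of_frobenius (h2 : A.valuation (2 : Qbar) = 1)
    (hb2 : (E⁄Qbar).b₂ ∈ A) (hb4 : (E⁄Qbar).b₄ ∈ A) (hb6 : (E⁄Qbar).b₆ ∈ A)
    {p : ℕ} (hn : A.valuation (p : Qbar) = 1) {ℓ : ℕ} {σ : Qbar ≃ₐ[ℚ] Qbar}
    (hσ : A.IsFrobeniusAt σ ℓ) {P : (E⁄Qbar).toAffine.Point} (hpP : p • P = 0) {x η : Qbar}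
    (hP : px (E⁄Qbar) P = some x) (hη : peta (E⁄Qbar) P = some η) (hx : x ∈ A)
    (hxF : A.valuation (x ^ ℓ - x) < 1) (hηF : A.valuation (η ^ ℓ - η) < 1)
    (hns : A.valuation η = 1 ∨ A.valuation (cf1 (E⁄Qbar).b₂ (E⁄Qbar).b₄ x) = 1) :
    σ • P = P := by
  have hηA : η ∈ A := peta_mem hb2 hb4 hb6 hP hη hx
  have hP' : px (E⁄Qbar) (σ • P) = some (σ x) := by rw [px_galois, hP]; rfl
  have hη' : peta (E⁄Qbar) (σ • P) = some (σ η) := by rw [peta_galois, hη]; rfl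
  have hdx : A.valuation (σ x - x) < 1 := by
    have e : σ x - x = (σ x - x ^ ℓ) + (x ^ ℓ - x) := by ring
    rw [e]
    exact Valuation.map_add_lt _ (valuation_frob_sub_pow_lt_one A hσ hx) hxF
  have hdη : A.valuation (σ η - η) < 1 := by
    have e : σ η - η = (σ η - η ^ ℓ) + (η ^ ℓ - η) := by ring
    rw [e]
    exact Valuation.map_add_lt _ (valuation_frob_sub_pow_lt_one A hσ hηA) hηF
  have hker : InKer A (E⁄Qbar) (σ • P - P) :=
    sub_inKer_of_congr h2 hb2 hb4 hb6 hP hη hP' hη' hx hdx hdη hns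
  exact smul_eq_of_sub_inKer E A h2 hb2 hb4 hb6 hn σ hpP hker

/-- an element of `A` congruent to a rational integer satisfies `c ^ ℓ ≡ c` -/
theorem valuation_pow_sub_lt_one_of_int {ℓ : ℕ} (hℓ : ℓ.Prime) (hA : A.LiesOverPrime ℓ)
    {c : Qbar} (hc : c ∈ A) (a : ℤ) (hca : A.valuation (c - (a : Qbar)) < 1) :
    A.valuation (c ^ ℓ - c) < 1 := by
  have haA : (a : Qbar) ∈ A := intCast_mem A a
  -- `c ^ ℓ - a ^ ℓ`
  have h1 : A.valuation (c ^ ℓ - (a : Qbar) ^ ℓ) < 1 := by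
    rw [← geom_sum₂_mul c (a : Qbar) ℓ, map_mul]
    have hs : (∑ i ∈ Finset.range ℓ, c ^ i * (a : Qbar) ^ (ℓ - 1 - i)) ∈ A :=
      sum_mem fun i _ => mul_mem (pow_mem hc i) (pow_mem haA _)
    have hs' : A.valuation (∑ i ∈ Finset.range ℓ, c ^ i * (a : Qbar) ^ (ℓ - 1 - i)) ≤ 1 :=
      (A.valuation_le_one_iff _).mpr hs
    calc A.valuation (∑ i ∈ Finset.range ℓ, c ^ i * (a : Qbar) ^ (ℓ - 1 - i)) *
          A.valuation (c - (a : Qbar)) ≤ 1 * A.valuation (c - (a : Qbar)) := by gcongr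
      _ = A.valuation (c - (a : Qbar)) := one_mul _
      _ < 1 := hca
  -- `a ^ ℓ - a` is divisible by `ℓ`
  have h2 : A.valuation ((a : Qbar) ^ ℓ - (a : Qbar)) < 1 := by
    have : Fact ℓ.Prime := ⟨hℓ⟩
    have hz : ((a ^ ℓ - a : ℤ) : ZMod ℓ) = 0 := by
      push_cast
      rw [ZMod.pow_card, sub_self]
    obtain ⟨m, hm⟩ := (ZMod.intCast_zmod_eq_zero_iff_dvd _ ℓ).mp hz
    have e : (a : Qbar) ^ ℓ - (a : Qbar) = (ℓ : Qbar) * (m : Qbar) := by
      have := congrArg (fun z : ℤ => (z : Qbar)) hm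
      push_cast at this
      exact this
    rw [e, map_mul]
    have hl : A.valuation (ℓ : Qbar) < 1 := A.mem_nonunits_iff.mp hA
    have hm' : A.valuation (m : Qbar) ≤ 1 := (A.valuation_le_one_iff _).mpr (intCast_mem A m)
    calc A.valuation (ℓ : Qbar) * A.valuation (m : Qbar) ≤ A.valuation (ℓ : Qbar) * 1 := by gcongr
      _ = A.valuation (ℓ : Qbar) := mul_one _
      _ < 1 := hl
  have h3 : A.valuation ((a : Qbar) - c) < 1 := by
    rw [← neg_sub, Valuation.map_neg]; exact hca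
  have e : c ^ ℓ - c = (c ^ ℓ - (a : Qbar) ^ ℓ) + (((a : Qbar) ^ ℓ - (a : Qbar)) + ((a : Qbar) - c)) := by
    ring
  rw [e]
  exact Valuation.map_add_lt _ h1 (Valuation.map_add_lt _ h2 h3)

/-- **Integer-lift form**: `x` and `±η` congruent to rational integers. -/
theorem smul_eq_of_frobenius_of_int (h2 : A.valuation (2 : Qbar) = 1)
    (hb2 : (E⁄Qbar).b₂ ∈ A) (hb4 : (E⁄Qbar).b₄ ∈ A) (hb6 : (E⁄Qbar).b₆ ∈ A)
    {p : ℕ} (hn : A.valuation (p : Qbar) = 1) {ℓ : ℕ} (hℓ : ℓ.Prime) (hA : A.LiesOverPrime ℓ)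
    {σ : Qbar ≃ₐ[ℚ] Qbar}
    (hσ : A.IsFrobeniusAt σ ℓ) {P : (E⁄Qbar).toAffine.Point} (hpP : p • P = 0) {x η : Qbar}
    (hP : px (E⁄Qbar) P = some x) (hη : peta (E⁄Qbar) P = some η) (hx : x ∈ A)
    (a e : ℤ) (hxa : A.valuation (x - (a : Qbar)) < 1)
    (hηe : A.valuation (η - (e : Qbar)) < 1 ∨ A.valuation (η + (e : Qbar)) < 1)
    (hns : A.valuation η = 1 ∨ A.valuation (cf1 (E⁄Qbar).b₂ (E⁄Qbar).b₄ x) = 1) :
    σ • P = P := by
  have hηA : η ∈ A := peta_mem hb2 hb4 hb6 hP hη hx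
  refine smul_eq_of_frobenius E A h2 hb2 hb4 hb6 hn hσ hpP hP hη hx
    (valuation_pow_sub_lt_one_of_int A hℓ hA hx a hxa) ?_ hns
  rcases hηe with h | h
  · exact valuation_pow_sub_lt_one_of_int A hℓ hA hηA e h
  · refine valuation_pow_sub_lt_one_of_int A hℓ hA hηA (-e) ?_
    have : η - ((-e : ℤ) : Qbar) = η + (e : Qbar) := by push_cast; ring
    rw [this]; exact h

end Main

end Fermat.Agent.S41.NonEis.FrobFix
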