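import Mathlib
import Fermat.Agent.S13.Ladder

/-!
# S41 / L4 (non-Eisenstein block), step N3: the exact count of odd torsion

For a Weierstrass curve `W` with `Δ ≠ 0` over an algebraically closed field of characteristic
zero and `n ≥ 1` we produce `n ^ 2` distinct points killed by `n`
(`exists_finset_torsion`).  Together with the upper bound
`Fermat.Agent.S13.Ladder.card_odd_torsion_le` this gives, for odd `m`,
`Nat.card (Submodule.torsionBy ℤ W.toAffine.Point m) = m ^ 2` (`card_odd_torsion_eq`,
`card_prime_torsion_eq`).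

Idea: with `N = ladN W n`, `D = ladD W n` (so that `x (n • P) = N (x P) / D (x P)`), the
polynomials `N`, `D` are coprime and `N` is monic of degree `n ^ 2 > deg D`; for all but finitely
many `t` the polynomial `N - t D` is separable, so it has `n ^ 2` distinct roots `r`; each root is
the abscissa of a point `P_r` with `n • P_r = P₀` (a fixed point of abscissa `t`), and the
differences `P_r - P_{r₀}` are `n ^ 2` distinct points killed by `n`.
-/

set_option autoImplicit false
set_option linter.unusedSectionVars false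

namespace Fermat.Agent.S41.NonEis.TorsionCard

open Polynomial WeierstrassCurve WeierstrassCurve.Affine Fermat.Agent.S51
  Fermat.Agent.S13.Ladder

variable {F : Type*} [Field F] [DecidableEq F] [CharZero F] (W : WeierstrassCurve F)

/-! ### degrees -/

lemma natDegree_ladN (n : ℕ) (hn : 1 ≤ n) : (ladN W n).natDegree = n ^ 2 := by
  refine le_antisymm (lead_ladN W n hn).1 (le_natDegree_of_ne_zero ?_)
  rw [(lead_ladN W n hn).2]
  exact one_ne_zero

lemma monic_ladN (n : ℕ) (hn : 1 ≤ n) : (ladN W n).Monic := by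
  rw [Monic, leadingCoeff, natDegree_ladN W n hn, (lead_ladN W n hn).2]

lemma one_le_sq {n : ℕ} (hn : 1 ≤ n) : 1 ≤ n ^ 2 := Nat.one_le_pow _ _ hn

lemma natDegree_C_mul_ladD_lt (n : ℕ) (hn : 1 ≤ n) (t : F) :
    (C t * ladD W n).natDegree < (ladN W n).natDegree := by
  rw [natDegree_ladN W n hn]
  have h1 : (C t * ladD W n).natDegree ≤ n ^ 2 - 1 :=
    (natDegree_C_mul_le _ _).trans (lead_ladD W n hn).1
  have := one_le_sq hn
  omega

/-- the fibre polynomial `N - t D` -/
noncomputable def fib (n : ℕ) (t : F) : F[X] := ladN W n - C t * ladD W n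

lemma natDegree_fib (n : ℕ) (hn : 1 ≤ n) (t : F) : (fib W n t).natDegree = n ^ 2 := by
  rw [fib, natDegree_sub_eq_left_of_natDegree_lt (natDegree_C_mul_ladD_lt W n hn t),
    natDegree_ladN W n hn]

lemma fib_ne_zero (n : ℕ) (hn : 1 ≤ n) (t : F) : fib W n t ≠ 0 := by
  intro h
  have h1 := natDegree_fib W n hn t
  rw [h, natDegree_zero] at h1
  have := one_le_sq hn
  omega

lemma eval_fib (n : ℕ) (t x : F) :
    (fib W n t).eval x = (ladN W n).eval x - t * (ladD W n).eval x := by
  simp [fib]

/-! ### `N` and `D` are coprime -/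

variable [IsAlgClosed F]

/-- `N_n` and `D_n` have no common root. -/
lemma no_common_root (hΔ : W.Δ ≠ 0) (n : ℕ) (hn : 1 ≤ n) (x : F)
    (hN : (ladN W n).eval x = 0) (hD : (ladD W n).eval x = 0) : False := by
  obtain ⟨P, hP⟩ := exists_point_of_x W hΔ x
  obtain ⟨y, h, rfl⟩ := exists_of_px_eq_some hP
  rw [eval_ladN] at hN
  rw [eval_ladD] at hD
  rcases spec W.toAffine h n hn with ⟨_, _, hN'⟩ | ⟨x', y', h', _, hD', _⟩
  · exact hN' hN
  · exact hD' hD

lemma isCoprime_ladN_ladD (hΔ : W.Δ ≠ 0) (n : ℕ) (hn : 1 ≤ n) :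
    IsCoprime (ladN W n) (ladD W n) := by
  rw [Polynomial.isCoprime_iff_aeval_ne_zero_of_isAlgClosed F F]
  intro a
  by_contra hcon
  rw [not_or, not_not, not_not] at hcon
  simp only [coe_aeval_eq_eval] at hcon
  exact no_common_root W hΔ n hn a hcon.1 hcon.2

/-- the Wronskian `N' D - N D'` -/
noncomputable def wr (n : ℕ) : F[X] :=
  derivative (ladN W n) * ladD W n - ladN W n * derivative (ladD W n)

lemma wr_ne_zero (hΔ : W.Δ ≠ 0) (n : ℕ) (hn : 1 ≤ n) : wr W n ≠ 0 := by
  intro h0
  have h1 : derivative (ladN W n) * ladD W n = ladN W n * derivative (ladD W n) :=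
    sub_eq_zero.mp h0
  have hdvd : ladN W n ∣ derivative (ladN W n) := by
    have : ladN W n ∣ derivative (ladN W n) * ladD W n := ⟨_, h1⟩
    exact (isCoprime_ladN_ladD W hΔ n hn).dvd_of_dvd_mul_right this
  have hd0 : derivative (ladN W n) = 0 := by
    by_contra hne
    have h2 := natDegree_le_of_dvd hdvd hne
    have h3 : (derivative (ladN W n)).natDegree < (ladN W n).natDegree :=
      natDegree_derivative_lt (by
        rw [natDegree_ladN W n hn]
        have := one_le_sq hn
        omega)
    omega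
  have h4 := Polynomial.derivative_eq_zero.mp hd0
  rw [natDegree_ladN W n hn] at h4
  have := one_le_sq hn
  omega

/-! ### a separable fibre -/

/-- if `N - t D` is not separable then `t = N(r)/D(r)` for a root `r` of the Wronskian -/
lemma exists_root_wr_of_not_separable (hΔ : W.Δ ≠ 0) (n : ℕ) (hn : 1 ≤ n) (t : F)
    (hns : ¬ (fib W n t).Separable) :
    ∃ r : F, (wr W n).eval r = 0 ∧ (ladD W n).eval r ≠ 0 ∧
      t = (ladN W n).eval r / (ladD W n).eval r := by
  rw [separable_def, Polynomial.isCoprime_iff_aeval_ne_zero_of_isAlgClosed F F,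
    not_forall] at hns
  obtain ⟨r, hr⟩ := hns
  rw [not_or, not_not, not_not] at hr
  obtain ⟨hr1, hr2⟩ := hr
  simp only [coe_aeval_eq_eval] at hr1 hr2
  rw [eval_fib] at hr1
  have hr2' : (derivative (ladN W n)).eval r - t * (derivative (ladD W n)).eval r = 0 := by
    simpa [fib] using hr2
  have hD : (ladD W n).eval r ≠ 0 := by
    intro hD
    rw [hD, mul_zero, sub_zero] at hr1
    exact no_common_root W hΔ n hn r hr1 hD
  have ht : t = (ladN W n).eval r / (ladD W n).eval r := by
    rw [eq_div_iff hD]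
    linear_combination -hr1
  refine ⟨r, ?_, hD, ht⟩
  simp only [wr, eval_sub, eval_mul]
  have e1 : (ladN W n).eval r = t * (ladD W n).eval r := by linear_combination hr1
  have e2 : (derivative (ladN W n)).eval r = t * (derivative (ladD W n)).eval r := by
    linear_combination hr2'
  rw [e1, e2]
  ring

lemma exists_separable_fib (hΔ : W.Δ ≠ 0) (n : ℕ) (hn : 1 ≤ n) :
    ∃ t : F, (fib W n t).Separable := by
  classical
  by_contra hcon
  rw [not_exists] at hcon
  -- every `t` lies in the finite image of the roots of the Wronskian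
  let S : Finset F := (wr W n).roots.toFinset.image
    (fun r => (ladN W n).eval r / (ladD W n).eval r)
  have hall : ∀ t : F, t ∈ S := by
    intro t
    obtain ⟨r, hr, _, ht⟩ := exists_root_wr_of_not_separable W hΔ n hn t (hcon t)
    refine Finset.mem_image.mpr ⟨r, ?_, ht.symm⟩
    rw [Multiset.mem_toFinset, mem_roots (wr_ne_zero W hΔ n hn)]
    exact hr
  have hfin : Finite F := Finite.of_injective (fun t => (⟨t, hall t⟩ : S))
    (fun a b hab => by simpa using congrArg Subtype.val hab)
  exact not_finite F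

/-! ### the lower bound -/

/-- every root `r` of `N - t D` is the abscissa of an `n`-th "root" of `P₀`. -/
lemma exists_point_of_root (hΔ : W.Δ ≠ 0) (n : ℕ) (hn : 1 ≤ n) {t : F}
    {P₀ : W.toAffine.Point} (hP₀ : px W P₀ = some t) {r : F} (hr : (fib W n t).eval r = 0) :
    ∃ P : W.toAffine.Point, px W P = some r ∧ n • P = P₀ := by
  rw [eval_fib] at hr
  have hD : (ladD W n).eval r ≠ 0 := by
    intro hD
    rw [hD, mul_zero, sub_zero] at hr
    exact no_common_root W hΔ n hn r hr hD
  have ht : (ladN W n).eval r / (ladD W n).eval r = t := by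
    rw [div_eq_iff hD]
    linear_combination hr
  obtain ⟨P, hP⟩ := exists_point_of_x W hΔ r
  have h1 : px W (n • P) = px W P₀ := by
    rw [px_nsmul hP hn hD, ht, hP₀]
  rcases px_eq_iff.mp h1 with h2 | h2
  · exact ⟨P, hP, h2⟩
  · refine ⟨-P, by rw [px_neg, hP], ?_⟩
    rw [smul_neg, h2, neg_neg]

/-- **Lower bound**: there are `n ^ 2` distinct points killed by `n`. -/
theorem exists_finset_torsion (hΔ : W.Δ ≠ 0) (n : ℕ) (hn : 1 ≤ n) :
    ∃ s : Finset W.toAffine.Point, s.card = n ^ 2 ∧ ∀ P ∈ s, n • P = 0 := by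
  classical
  obtain ⟨t, hsep⟩ := exists_separable_fib W hΔ n hn
  obtain ⟨P₀, hP₀⟩ := exists_point_of_x W hΔ t
  have hcard : (fib W n t).roots.toFinset.card = n ^ 2 := by
    rw [Multiset.toFinset_card_of_nodup (nodup_roots hsep),
      ← (IsAlgClosed.splits (fib W n t)).natDegree_eq_card_roots, natDegree_fib W n hn]
  have hex : ∀ r : F, ∃ P : W.toAffine.Point,
      (fib W n t).eval r = 0 → px W P = some r ∧ n • P = P₀ := by
    intro r
    by_cases hr : (fib W n t).eval r = 0
    · obtain ⟨P, h1, h2⟩ := exists_point_of_root W hΔ n hn hP₀ hr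
      exact ⟨P, fun _ => ⟨h1, h2⟩⟩
    · exact ⟨0, fun h => absurd h hr⟩
  choose g hg using hex
  have hroot : ∀ r ∈ (fib W n t).roots.toFinset, (fib W n t).eval r = 0 := by
    intro r hr
    rw [Multiset.mem_toFinset, mem_roots (fib_ne_zero W n hn t)] at hr
    exact hr
  have hne : (fib W n t).roots.toFinset.Nonempty := by
    rw [← Finset.card_pos, hcard]
    exact one_le_sq hn
  obtain ⟨r₀, hr₀⟩ := hne
  refine ⟨(fib W n t).roots.toFinset.image (fun r => g r - g r₀), ?_, ?_⟩
  · rw [Finset.card_image_of_injOn, hcard]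
    intro a ha b hb hab
    have hab' : g a = g b := by
      have := congrArg (fun P => P + g r₀) hab
      simpa using this
    have h1 := (hg a (hroot a ha)).1
    have h2 := (hg b (hroot b hb)).1
    rw [hab', h2] at h1
    exact (Option.some.inj h1).symm
  · intro P hP
    obtain ⟨r, hr, rfl⟩ := Finset.mem_image.mp hP
    rw [smul_sub, (hg r (hroot r hr)).2, (hg r₀ (hroot r₀ hr₀)).2, sub_self]

/-! ### exact counts -/

/-- **Exact count** of the `(2k+1)`-torsion. -/
theorem card_odd_torsion_eq (hΔ : W.Δ ≠ 0) (k : ℕ) (hk : 1 ≤ k) :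
    Nat.card (Submodule.torsionBy ℤ W.toAffine.Point (2 * k + 1 : ℕ)) = (2 * k + 1) ^ 2 := by
  classical
  obtain ⟨hfin, hle⟩ := card_odd_torsion_le W k hk
  refine le_antisymm hle ?_
  obtain ⟨s, hs, hs0⟩ := exists_finset_torsion W hΔ (2 * k + 1) (by omega)
  have hmem : ∀ P : s, (P : W.toAffine.Point) ∈
      Submodule.torsionBy ℤ W.toAffine.Point (2 * k + 1 : ℕ) := by
    intro P
    rw [Submodule.mem_torsionBy_iff, natCast_zsmul]
    exact hs0 P P.2
  let f : s → Submodule.torsionBy ℤ W.toAffine.Point (2 * k + 1 : ℕ) := fun P => ⟨P, hmem P⟩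
  have hf : Function.Injective f := by
    intro a b hab
    exact Subtype.ext (congrArg (fun Q : Submodule.torsionBy ℤ W.toAffine.Point (2 * k + 1 : ℕ) =>
      (Q : W.toAffine.Point)) hab)
  have := Nat.card_le_card_of_injective f hf
  rwa [Nat.card_eq_fintype_card, Fintype.card_coe, hs] at this

/-- **Exact count** of the `p`-torsion for an odd prime `p`. -/
theorem card_prime_torsion_eq (hΔ : W.Δ ≠ 0) {p : ℕ} (hp : p.Prime) (hp2 : p ≠ 2) :
    Nat.card (Submodule.torsionBy ℤ W.toAffine.Point (p : ℕ)) = p ^ 2 := by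
  have := card_odd_torsion_eq W hΔ (p / 2) (one_le_half hp hp2)
  rwa [two_mul_half_add_one hp hp2] at this

end Fermat.Agent.S41.NonEis.TorsionCard
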