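/-
S41 / L4 (BlockNonEis), piece (N6): transport of points along an admissible change of variables.

For a field `K`, Weierstrass curves `W W' : WeierstrassCurve K` and `C : VariableChange K` with
`C • W = W'`, the map `(x, y) ↦ (u² x + r, u³ y + u² s x + t)` is an additive equivalence
`W'.Point ≃+ W.Point`.  For curves over `ℚ` it is equivariant for the Galois action of
`Qbar ≃ₐ[ℚ] Qbar` on `Qbar`-points defined in the Prelude.
-/
import Mathlib
import Fermat.Prelude.Def_FLTPrelim_GaloisRep

set_option autoImplicit false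

namespace Fermat.Agent.S41.NonEis.VarChange

open WeierstrassCurve

section Field

variable {K : Type*} [Field K]

/-- The `x`-coordinate of the image point. -/
def tx (C : VariableChange K) (x : K) : K := (C.u : K) ^ 2 * x + C.r

/-- The `y`-coordinate of the image point. -/
def ty (C : VariableChange K) (x y : K) : K := (C.u : K) ^ 3 * y + (C.u : K) ^ 2 * C.s * x + C.t

lemma u_ne_zero (C : VariableChange K) : (C.u : K) ≠ 0 := C.u.ne_zero

lemma tx_injective (C : VariableChange K) : Function.Injective (tx C) := by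
  intro x x' h
  have hu := u_ne_zero C
  have : (C.u : K) ^ 2 * x = (C.u : K) ^ 2 * x' := by
    unfold tx at h; exact add_right_cancel h
  exact mul_left_cancel₀ (pow_ne_zero 2 hu) this

lemma ty_injective (C : VariableChange K) (x : K) : Function.Injective (ty C x) := by
  intro y y' h
  have hu := u_ne_zero C
  have : (C.u : K) ^ 3 * y = (C.u : K) ^ 3 * y' := by
    unfold ty at h; exact add_right_cancel (add_right_cancel h)
  exact mul_left_cancel₀ (pow_ne_zero 3 hu) this

variable (W : WeierstrassCurve K) (C : VariableChange K)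

/-- The Weierstrass polynomial transforms by the factor `u⁶`. -/
lemma weierstrass_eq (x y : K) :
    (ty C x y) ^ 2 + W.a₁ * (tx C x) * (ty C x y) + W.a₃ * (ty C x y)
      - ((tx C x) ^ 3 + W.a₂ * (tx C x) ^ 2 + W.a₄ * (tx C x) + W.a₆)
    = (C.u : K) ^ 6 * (y ^ 2 + (C • W).a₁ * x * y + (C • W).a₃ * y
      - (x ^ 3 + (C • W).a₂ * x ^ 2 + (C • W).a₄ * x + (C • W).a₆)) := by
  have hu := u_ne_zero C
  simp only [variableChange_a₁, variableChange_a₂, variableChange_a₃, variableChange_a₄,
    variableChange_a₆, Units.val_inv_eq_inv_val, tx, ty]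
  field_simp
  ring

lemma polyY_eq (x y : K) :
    2 * (ty C x y) + W.a₁ * (tx C x) + W.a₃
      = (C.u : K) ^ 3 * (2 * y + (C • W).a₁ * x + (C • W).a₃) := by
  have hu := u_ne_zero C
  simp only [variableChange_a₁, variableChange_a₃, Units.val_inv_eq_inv_val, tx, ty]
  field_simp
  ring

lemma polyX_eq (x y : K) :
    (W.a₁ * (ty C x y) - (3 * (tx C x) ^ 2 + 2 * W.a₂ * (tx C x) + W.a₄))
      + C.s * (2 * (ty C x y) + W.a₁ * (tx C x) + W.a₃)
      = (C.u : K) ^ 4 * ((C • W).a₁ * y - (3 * x ^ 2 + 2 * (C • W).a₂ * x + (C • W).a₄)) := by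
  have hu := u_ne_zero C
  simp only [variableChange_a₁, variableChange_a₂, variableChange_a₄,
    Units.val_inv_eq_inv_val, tx, ty]
  field_simp
  ring

lemma equation_iff (x y : K) :
    (C • W).toAffine.Equation x y ↔ W.toAffine.Equation (tx C x) (ty C x y) := by
  rw [Affine.equation_iff', Affine.equation_iff', weierstrass_eq]
  constructor
  · intro h; rw [h, mul_zero]
  · intro h
    rcases mul_eq_zero.mp h with h | h
    · exact absurd h (pow_ne_zero 6 (u_ne_zero C))
    · exact h

lemma nonsingular_iff (x y : K) :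
    (C • W).toAffine.Nonsingular x y ↔ W.toAffine.Nonsingular (tx C x) (ty C x y) := by
  have hu := u_ne_zero C
  rw [Affine.nonsingular_iff', Affine.nonsingular_iff', equation_iff]
  refine and_congr_right fun _ => ?_
  have hY := polyY_eq W C x y
  have hX := polyX_eq W C x y
  constructor
  · rintro (h | h)
    · by_contra hcon
      simp only [not_or, not_not] at hcon
      rw [hcon.1, hcon.2, mul_zero, add_zero] at hX
      exact h ((mul_eq_zero.mp hX.symm).resolve_left (pow_ne_zero 4 hu))
    · right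
      rw [hY]
      exact mul_ne_zero (pow_ne_zero 3 hu) h
  · rintro (h | h)
    · by_contra hcon
      simp only [not_or, not_not] at hcon
      rw [hcon.2, mul_zero] at hY
      rw [hcon.1, mul_zero, hY, mul_zero, add_zero] at hX
      exact h hX
    · right
      intro h0
      rw [h0, mul_zero] at hY
      exact h hY

lemma negY_eq (x y : K) :
    W.toAffine.negY (tx C x) (ty C x y) = ty C x ((C • W).toAffine.negY x y) := by
  have hu := u_ne_zero C
  simp only [Affine.negY, variableChange_a₁, variableChange_a₃, Units.val_inv_eq_inv_val, tx, ty]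
  field_simp
  ring

lemma addX_eq (x₁ x₂ ℓ : K) :
    W.toAffine.addX (tx C x₁) (tx C x₂) ((C.u : K) * ℓ + C.s)
      = tx C ((C • W).toAffine.addX x₁ x₂ ℓ) := by
  have hu := u_ne_zero C
  simp only [Affine.addX, variableChange_a₁, variableChange_a₂, Units.val_inv_eq_inv_val, tx]
  field_simp
  ring

lemma negAddY_eq (x₁ x₂ y₁ ℓ : K) :
    W.toAffine.negAddY (tx C x₁) (tx C x₂) (ty C x₁ y₁) ((C.u : K) * ℓ + C.s)
      = ty C ((C • W).toAffine.addX x₁ x₂ ℓ) ((C • W).toAffine.negAddY x₁ x₂ y₁ ℓ) := by
  have hu := u_ne_zero C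
  rw [Affine.negAddY, addX_eq]
  simp only [Affine.negAddY, tx, ty]
  ring

lemma addY_eq (x₁ x₂ y₁ ℓ : K) :
    W.toAffine.addY (tx C x₁) (tx C x₂) (ty C x₁ y₁) ((C.u : K) * ℓ + C.s)
      = ty C ((C • W).toAffine.addX x₁ x₂ ℓ) ((C • W).toAffine.addY x₁ x₂ y₁ ℓ) := by
  rw [Affine.addY, negAddY_eq, addX_eq, negY_eq]
  rfl

variable [DecidableEq K]

lemma slope_eq {x₁ x₂ y₁ y₂ : K} (h₁ : (C • W).toAffine.Equation x₁ y₁)
    (h₂ : (C • W).toAffine.Equation x₂ y₂)
    (hxy : ¬(x₁ = x₂ ∧ y₁ = (C • W).toAffine.negY x₂ y₂)) :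
    W.toAffine.slope (tx C x₁) (tx C x₂) (ty C x₁ y₁) (ty C x₂ y₂)
      = (C.u : K) * (C • W).toAffine.slope x₁ x₂ y₁ y₂ + C.s := by
  have hu := u_ne_zero C
  by_cases hx : x₁ = x₂
  · have hy : y₁ ≠ (C • W).toAffine.negY x₂ y₂ := fun h => hxy ⟨hx, h⟩
    have hyy : y₁ = y₂ := Affine.Y_eq_of_Y_ne h₁ h₂ hx hy
    subst hx
    subst hyy
    have hy' : ty C x₁ y₁ ≠ W.toAffine.negY (tx C x₁) (ty C x₁ y₁) := by
      rw [negY_eq]
      exact fun h => hy (ty_injective C x₁ h)
    rw [Affine.slope_of_Y_ne rfl hy', Affine.slope_of_Y_ne rfl hy]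
    have hden : y₁ - (C • W).toAffine.negY x₁ y₁ ≠ 0 := sub_ne_zero.mpr hy
    have hden' : ty C x₁ y₁ - W.toAffine.negY (tx C x₁) (ty C x₁ y₁) ≠ 0 := sub_ne_zero.mpr hy'
    have hY := polyY_eq W C x₁ y₁
    have hX := polyX_eq W C x₁ y₁
    have e1 : ty C x₁ y₁ - W.toAffine.negY (tx C x₁) (ty C x₁ y₁)
        = 2 * (ty C x₁ y₁) + W.a₁ * (tx C x₁) + W.a₃ := by
      simp only [Affine.negY]; ring
    have e2 : y₁ - (C • W).toAffine.negY x₁ y₁ = 2 * y₁ + (C • W).a₁ * x₁ + (C • W).a₃ := by
      simp only [Affine.negY]; ring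
    have hD : ty C x₁ y₁ - W.toAffine.negY (tx C x₁) (ty C x₁ y₁)
        = (C.u : K) ^ 3 * (y₁ - (C • W).toAffine.negY x₁ y₁) := by rw [e1, e2, hY]
    have key : 3 * (tx C x₁) ^ 2 + 2 * W.a₂ * (tx C x₁) + W.a₄ - W.a₁ * (ty C x₁ y₁)
        = (C.u : K) ^ 4 * (3 * x₁ ^ 2 + 2 * (C • W).a₂ * x₁ + (C • W).a₄ - (C • W).a₁ * y₁)
          + C.s * ((C.u : K) ^ 3 * (y₁ - (C • W).toAffine.negY x₁ y₁)) := by
      rw [e2]
      linear_combination (-1 : K) * hX + C.s * hY
    rw [hD, div_eq_iff (mul_ne_zero (pow_ne_zero 3 hu) hden), key]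
    field_simp
  · have hx' : tx C x₁ ≠ tx C x₂ := fun h => hx (tx_injective C h)
    rw [Affine.slope_of_X_ne hx', Affine.slope_of_X_ne hx]
    have h1 : x₁ - x₂ ≠ 0 := sub_ne_zero.mpr hx
    have h2 : tx C x₁ - tx C x₂ ≠ 0 := sub_ne_zero.mpr hx'
    rw [div_eq_iff h2]
    unfold tx ty
    field_simp
    ring

/-- The transport of points `(x, y) ↦ (u² x + r, u³ y + u² s x + t)` from `C • W` to `W`,
as an additive homomorphism. -/
noncomputable def pointHom : (C • W).toAffine.Point →+ W.toAffine.Point where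
  toFun P := match P with
    | 0 => 0
    | .some x y h => .some (tx C x) (ty C x y) ((nonsingular_iff W C x y).mp h)
  map_zero' := rfl
  map_add' := by
    rintro (_ | ⟨x₁, y₁, h₁⟩) (_ | ⟨x₂, y₂, h₂⟩)
    any_goals rfl
    by_cases hxy : x₁ = x₂ ∧ y₁ = (C • W).toAffine.negY x₂ y₂
    · rw [Affine.Point.add_of_Y_eq hxy.left hxy.right]
      exact (Affine.Point.add_of_Y_eq (congr_arg _ hxy.left)
        (by rw [hxy.right, negY_eq, hxy.left])).symm
    · have hxy' : ¬(tx C x₁ = tx C x₂ ∧
          ty C x₁ y₁ = W.toAffine.negY (tx C x₂) (ty C x₂ y₂)) := by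
        rintro ⟨hx, hy⟩
        have hx' := tx_injective C hx
        subst hx'
        rw [negY_eq] at hy
        exact hxy ⟨rfl, ty_injective C _ hy⟩
      rw [Affine.Point.add_some hxy]
      show Affine.Point.some _ _ _ = Affine.Point.some _ _ _ + Affine.Point.some _ _ _
      rw [Affine.Point.add_some hxy', Affine.Point.some.injEq]
      refine ⟨?_, ?_⟩
      · rw [slope_eq W C h₁.1 h₂.1 hxy, addX_eq]
      · rw [slope_eq W C h₁.1 h₂.1 hxy, addY_eq]

@[simp] lemma pointHom_zero : pointHom W C 0 = 0 := rfl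

@[simp] lemma pointHom_some {x y : K} (h : (C • W).toAffine.Nonsingular x y) :
    pointHom W C (.some x y h) = .some (tx C x) (ty C x y) ((nonsingular_iff W C x y).mp h) := rfl

lemma pointHom_injective : Function.Injective (pointHom W C) := by
  rintro (_ | ⟨x₁, y₁, h₁⟩) (_ | ⟨x₂, y₂, h₂⟩) h
  · rfl
  · change (0 : W.toAffine.Point) = Affine.Point.some _ _ _ at h
    exact absurd h.symm (Affine.Point.some_ne_zero _)
  · change Affine.Point.some _ _ _ = (0 : W.toAffine.Point) at h
    exact absurd h (Affine.Point.some_ne_zero _)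
  · rw [pointHom_some, pointHom_some, Affine.Point.some.injEq] at h
    obtain ⟨hx, hy⟩ := h
    have hx' := tx_injective C hx
    subst hx'
    have hy' := ty_injective C _ hy
    subst hy'
    rfl

lemma pointHom_surjective : Function.Surjective (pointHom W C) := by
  rintro (_ | ⟨X, Y, hXY⟩)
  · exact ⟨0, rfl⟩
  · have hu := u_ne_zero C
    have e1 : tx C ((X - C.r) / (C.u : K) ^ 2) = X := by
      unfold tx; field_simp; ring
    have e2 : ty C ((X - C.r) / (C.u : K) ^ 2)
        ((Y - C.t - (C.u : K) ^ 2 * C.s * ((X - C.r) / (C.u : K) ^ 2)) / (C.u : K) ^ 3) = Y := by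
      unfold ty; field_simp; ring
    have hn : (C • W).toAffine.Nonsingular ((X - C.r) / (C.u : K) ^ 2)
        ((Y - C.t - (C.u : K) ^ 2 * C.s * ((X - C.r) / (C.u : K) ^ 2)) / (C.u : K) ^ 3) := by
      rw [nonsingular_iff, e1, e2]; exact hXY
    refine ⟨.some _ _ hn, ?_⟩
    rw [pointHom_some, Affine.Point.some.injEq]
    exact ⟨e1, e2⟩

/-- The transport of points from `C • W` to `W` as an additive equivalence. -/
noncomputable def pointEquivSmul : (C • W).toAffine.Point ≃+ W.toAffine.Point :=
  AddEquiv.ofBijective (pointHom W C) ⟨pointHom_injective W C, pointHom_surjective W C⟩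

@[simp] lemma pointEquivSmul_apply (P : (C • W).toAffine.Point) :
    pointEquivSmul W C P = pointHom W C P := rfl

variable {W C}

/-- **General transport of points along a change of variables.** If `C • W = W'` then
`(x, y) ↦ (u² x + r, u³ y + u² s x + t)` is an additive equivalence `W'.Point ≃+ W.Point`. -/
noncomputable def pointEquiv {W' : WeierstrassCurve K} (h : C • W = W') :
    W'.toAffine.Point ≃+ W.toAffine.Point := by
  subst h
  exact pointEquivSmul W C

omit [DecidableEq K] in
lemma nonsingular_of_eq {W' : WeierstrassCurve K} (h : C • W = W') {x y : K}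
    (hn : W'.toAffine.Nonsingular x y) : W.toAffine.Nonsingular (tx C x) (ty C x y) := by
  subst h
  exact (nonsingular_iff W C x y).mp hn

@[simp] lemma pointEquiv_zero {W' : WeierstrassCurve K} (h : C • W = W') :
    pointEquiv h 0 = 0 := map_zero _

lemma pointEquiv_some {W' : WeierstrassCurve K} (h : C • W = W') {x y : K}
    (hn : W'.toAffine.Nonsingular x y) :
    pointEquiv h (.some x y hn) = .some (tx C x) (ty C x y) (nonsingular_of_eq h hn) := by
  subst h
  rfl

end Field

section Galois

open WeierstrassCurve.Affine WeierstrassCurve.Affine.Point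

variable {F : Type*} [Field F] {K : Type*} [Field K] [DecidableEq K] [Algebra F K]
variable {E WQ : WeierstrassCurve F} {C : VariableChange F}

omit [DecidableEq K] in
lemma baseChange_smul_eq (hC : C • E = WQ) :
    (C.baseChange K) • (E.baseChange K) = WQ.baseChange K := by
  rw [← hC]
  exact map_variableChange E C (algebraMap F K)

/-- The transport of `K`-points `(WQ⁄K).Point ≃+ (E⁄K).Point` for curves over `F` with
`C • E = WQ`. -/
noncomputable def galoisEquiv' (hC : C • E = WQ) : (WQ⁄K).Point ≃+ (E⁄K).Point :=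
  pointEquiv (baseChange_smul_eq (K := K) hC)

omit [DecidableEq K] in
lemma tx_baseChange_map (σ : K ≃ₐ[F] K) (x : K) :
    σ (tx (C.baseChange K) x) = tx (C.baseChange K) (σ x) := by
  simp [tx, VariableChange.baseChange, VariableChange.map]

omit [DecidableEq K] in
lemma ty_baseChange_map (σ : K ≃ₐ[F] K) (x y : K) :
    σ (ty (C.baseChange K) x y) = ty (C.baseChange K) (σ x) (σ y) := by
  simp [ty, VariableChange.baseChange, VariableChange.map]

/-- The transport of points commutes with the Galois action. -/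
lemma galoisEquiv'_smul (hC : C • E = WQ) (σ : K ≃ₐ[F] K) (P : (WQ⁄K).Point) :
    galoisEquiv' hC (σ • P) = σ • galoisEquiv' hC P := by
  rcases P with _ | ⟨x, y, h⟩
  · change galoisEquiv' hC (σ • 0) = σ • galoisEquiv' hC 0
    rw [smul_zero, _root_.map_zero, smul_zero]
  · rw [algEquiv_smul_def, algEquiv_smul_def, Point.map_some]
    unfold galoisEquiv'
    rw [pointEquiv_some, pointEquiv_some, Point.map_some, Affine.Point.some.injEq]
    exact ⟨(tx_baseChange_map σ x).symm, (ty_baseChange_map σ x y).symm⟩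

/-- The transport of `K`-points `(E⁄K).Point ≃+ (WQ⁄K).Point` for curves over `F` with
`C • E = WQ` (inverse of `(x, y) ↦ (u² x + r, u³ y + u² s x + t)`). -/
noncomputable def galoisEquiv (hC : C • E = WQ) : (E⁄K).Point ≃+ (WQ⁄K).Point :=
  (galoisEquiv' (K := K) hC).symm

lemma galoisEquiv_symm_apply (hC : C • E = WQ) (P : (WQ⁄K).Point) :
    (galoisEquiv hC).symm P = galoisEquiv' hC P := rfl

/-- The transport of points commutes with the Galois action. -/
lemma galoisEquiv_smul (hC : C • E = WQ) (σ : K ≃ₐ[F] K) (P : (E⁄K).Point) :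
    galoisEquiv hC (σ • P) = σ • galoisEquiv hC P := by
  apply (galoisEquiv' (K := K) hC).injective
  unfold galoisEquiv
  rw [AddEquiv.apply_symm_apply, galoisEquiv'_smul, AddEquiv.apply_symm_apply]

/-- The map induced on `n`-torsion by an additive equivalence. -/
noncomputable def torsionHom {A B : Type*} [AddCommGroup A] [AddCommGroup B] (e : A ≃+ B) (n : ℕ) :
    Submodule.torsionBy ℤ A n →+ Submodule.torsionBy ℤ B n where
  toFun P := ⟨e P, by
    rw [Submodule.mem_torsionBy_iff, ← map_zsmul, (Submodule.mem_torsionBy_iff _ _).mp P.2,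
      _root_.map_zero]⟩
  map_zero' := Subtype.ext (_root_.map_zero e)
  map_add' P Q := Subtype.ext (map_add e (P : A) (Q : A))

lemma torsionHom_coe {A B : Type*} [AddCommGroup A] [AddCommGroup B] (e : A ≃+ B) (n : ℕ)
    (P : Submodule.torsionBy ℤ A n) : (torsionHom e n P : B) = e P := rfl

lemma torsionHom_injective {A B : Type*} [AddCommGroup A] [AddCommGroup B] (e : A ≃+ B) (n : ℕ) :
    Function.Injective (torsionHom e n) := by
  intro P Q h
  apply Subtype.ext
  apply e.injective
  exact congrArg Subtype.val h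

lemma torsionHom_surjective {A B : Type*} [AddCommGroup A] [AddCommGroup B] (e : A ≃+ B)
    (n : ℕ) : Function.Surjective (torsionHom e n) := by
  intro Q
  refine ⟨⟨e.symm Q, ?_⟩, ?_⟩
  · rw [Submodule.mem_torsionBy_iff, ← map_zsmul, (Submodule.mem_torsionBy_iff _ _).mp Q.2,
      _root_.map_zero]
  · apply Subtype.ext
    exact e.apply_symm_apply _

/-- The map on `n`-torsion points induced by `galoisEquiv` commutes with the Galois action. -/
lemma torsionHom_galoisEquiv_smul (hC : C • E = WQ) (n : ℕ) (σ : K ≃ₐ[F] K)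
    (P : Submodule.torsionBy ℤ (E⁄K).Point n) :
    torsionHom (galoisEquiv (K := K) hC) n (σ • P) = σ • torsionHom (galoisEquiv hC) n P := by
  apply Subtype.ext
  exact galoisEquiv_smul hC σ P

/-- **Irreducibility of the mod `n` Galois representation is invariant under a change of
variables over the base field.** -/
theorem galoisRepIsIrreducible_of_variableChange (hC : C • E = WQ) (n : ℕ)
    (h : GaloisRepIsIrreducible (K := K) F E n) : GaloisRepIsIrreducible (K := K) F WQ n := by
  obtain ⟨hnt, hirr⟩ := h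
  set φ := torsionHom (galoisEquiv (K := K) hC) n with hφ
  have hinj : Function.Injective φ := torsionHom_injective _ n
  have hsurj : Function.Surjective φ := torsionHom_surjective _ n
  refine ⟨hinj.nontrivial, fun N hN => ?_⟩
  have hst : IsGaloisStable F (Submodule.comap (φ.toZModLinearMap n) N) := by
    intro σ x hx
    rw [Submodule.mem_comap] at hx ⊢
    rw [AddMonoidHom.coe_toZModLinearMap] at hx ⊢
    rw [hφ, torsionHom_galoisEquiv_smul]
    exact hN σ _ hx
  rcases hirr _ hst with h0 | h1
  · left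
    rw [eq_bot_iff]
    intro y hy
    obtain ⟨x, rfl⟩ := hsurj y
    have hx : x ∈ Submodule.comap (φ.toZModLinearMap n) N := hy
    rw [h0, Submodule.mem_bot] at hx
    rw [hx, _root_.map_zero]
    exact Submodule.zero_mem _
  · right
    rw [eq_top_iff]
    intro y _
    obtain ⟨x, rfl⟩ := hsurj y
    have hx : x ∈ Submodule.comap (φ.toZModLinearMap n) N := by rw [h1]; exact Submodule.mem_top
    exact hx

end Galois

section Rat

open WeierstrassCurve.Affine WeierstrassCurve.Affine.Point

/-- The statement in the exact form used by `S41`: irreducibility of the mod `p` representation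
on `Qbar`-points is invariant under a rational change of variables. -/
theorem galoisRepIsIrreducible_rat {E WQ : WeierstrassCurve ℚ} {C : VariableChange ℚ}
    (hC : C • E = WQ) (p : ℕ)
    (h : GaloisRepIsIrreducible (K := AlgebraicClosure ℚ) ℚ E p) :
    GaloisRepIsIrreducible (K := AlgebraicClosure ℚ) ℚ WQ p :=
  galoisRepIsIrreducible_of_variableChange hC p h

end Rat

end Fermat.Agent.S41.NonEis.VarChange
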