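import Mathlib
import Fermat.Agent.S41.Skeleton
import Fermat.Agent.S41.NonEis.FixedVector
import Fermat.Agent.S41.NonEis.ChebGlue
import Fermat.Agent.S41.NonEis.TorsionCard
import Fermat.Agent.S41.NonEis.VarChange

/-!
# S41 / L4 (N7): assembly of `BlockNonEis`

`RedStmt` is the local statement (N4 + N5): at a good prime `ℓ ∤ 2p` with `a_ℓ ≡ ℓ + 1 (mod p)`
every Frobenius lift fixes a nonzero point of `W_ℚ[p](ℚ̄)`.

`blockNonEis_of_red : RedStmt → Skel.BlockNonEis`: if `a_ℓ ≡ ℓ + 1 (mod p)` for all good `ℓ ∤ M`,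
`ℓ ≠ p`, then every Frobenius lift outside the finite set `bad = primeFactors (2 M p |Δ|)` has a
nonzero fixed vector on `W_ℚ[p]`, hence so does every `g` (`ChebGlue`), hence there is a stable line
(`FixedVector`, `#W_ℚ[p] = p²` by `TorsionCard`), contradicting irreducibility (transported from `E`
to `W_ℚ` by `VarChange`).
-/

set_option autoImplicit false

namespace Fermat.Agent.S41.NonEis.Main

open WeierstrassCurve WeierstrassCurve.Affine WeierstrassCurve.Affine.Point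

local notation "Qbar" => AlgebraicClosure ℚ
local notation "GQ" => (AlgebraicClosure ℚ ≃ₐ[ℚ] AlgebraicClosure ℚ)

/-- the local statement at good primes -/
def RedStmt : Prop :=
  ∀ (W : WeierstrassCurve ℤ) (p ℓ : ℕ), p.Prime → p ≠ 2 → ℓ.Prime → ℓ ≠ 2 → ℓ ≠ p →
    ¬ (ℓ : ℤ) ∣ W.Δ → (p : ℤ) ∣ W.apOfModel ℓ - ((ℓ : ℤ) + 1) →
    ∀ A : ValuationSubring Qbar, A.LiesOverPrime ℓ → ∀ σ : GQ, A.IsFrobeniusAt σ ℓ →
      ∃ v : Submodule.torsionBy ℤ ((W.map (Int.castRingHom ℚ))⁄Qbar).Point p, v ≠ 0 ∧ σ • v = v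

/-- the discriminant of an integral model of an elliptic curve is nonzero -/
theorem Δ_ne_zero {E : WeierstrassCurve ℚ} [E.IsElliptic] {W : WeierstrassCurve ℤ}
    {C : VariableChange ℚ} (hC : C • E = W.map (Int.castRingHom ℚ)) : W.Δ ≠ 0 := by
  intro h0
  have h1 : (W.map (Int.castRingHom ℚ)).Δ = 0 := by rw [WeierstrassCurve.map_Δ, h0, _root_.map_zero]
  rw [← hC, WeierstrassCurve.variableChange_Δ] at h1
  have hu : ((C.u⁻¹ : ℚˣ) : ℚ) ^ 12 ≠ 0 := pow_ne_zero _ (Units.ne_zero _)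
  rcases mul_eq_zero.mp h1 with h | h
  · exact hu h
  · exact E.isUnit_Δ.ne_zero h

theorem blockNonEis_of_red (hred : RedStmt) : Fermat.Agent.S41.Skel.BlockNonEis := by
  intro E _ W hW p hp hp2 hirr M hM
  obtain ⟨C, hC⟩ := hW
  set WQ : WeierstrassCurve ℚ := W.map (Int.castRingHom ℚ) with hWQ
  have hΔ : W.Δ ≠ 0 := Δ_ne_zero hC
  have hirrW : GaloisRepIsIrreducible (K := Qbar) ℚ WQ p :=
    Fermat.Agent.S41.NonEis.VarChange.galoisRepIsIrreducible_rat hC p hirr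
  by_contra hcon
  push Not at hcon
  have : Fact p.Prime := ⟨hp⟩
  -- the exact count
  have hΔQ : (WQ⁄Qbar).Δ ≠ 0 := by
    show (WQ.map (algebraMap ℚ Qbar)).Δ ≠ 0
    rw [WeierstrassCurve.map_Δ, hWQ, WeierstrassCurve.map_Δ]
    intro h
    have h1 := (algebraMap ℚ Qbar).injective (h.trans (_root_.map_zero _).symm)
    exact hΔ (Int.cast_injective (α := ℚ) (by simpa using h1))
  have hcard : Nat.card (Submodule.torsionBy ℤ (WQ⁄Qbar).Point (p : ℕ)) = p ^ 2 :=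
    Fermat.Agent.S41.NonEis.TorsionCard.card_prime_torsion_eq (WQ⁄Qbar) hΔQ hp hp2
  have hfin : Finite (Submodule.torsionBy ℤ (WQ⁄Qbar).Point (p : ℕ)) := by
    apply Nat.finite_of_card_ne_zero
    rw [hcard]
    exact pow_ne_zero 2 hp.ne_zero
  -- the bad set
  set bad : Finset ℕ := (2 * M * p * W.Δ.natAbs).primeFactors with hbad
  have hprod : 2 * M * p * W.Δ.natAbs ≠ 0 := by
    have h1 : W.Δ.natAbs ≠ 0 := Int.natAbs_ne_zero.mpr hΔ
    have h2 : M ≠ 0 := hM.ne'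
    have h3 : p ≠ 0 := hp.ne_zero
    positivity
  have hout : ∀ ℓ : ℕ, ℓ.Prime → ℓ ∉ bad → ℓ ≠ 2 ∧ ¬ ℓ ∣ M ∧ ℓ ≠ p ∧ ¬ (ℓ : ℤ) ∣ W.Δ := by
    intro ℓ hℓ hnb
    have hnd : ¬ ℓ ∣ 2 * M * p * W.Δ.natAbs := by
      intro hd
      exact hnb (Nat.mem_primeFactors.mpr ⟨hℓ, hd, hprod⟩)
    refine ⟨?_, ?_, ?_, ?_⟩
    · rintro rfl
      exact hnd (Dvd.dvd.mul_right (Dvd.dvd.mul_right (Dvd.intro _ rfl) _) _)
    · intro h
      exact hnd (Dvd.dvd.mul_right (Dvd.dvd.mul_right (Dvd.dvd.mul_left h _) _) _)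
    · rintro rfl
      exact hnd (Dvd.dvd.mul_right (Dvd.intro_left _ rfl) _)
    · intro h
      exact hnd (Dvd.dvd.mul_left (Int.natCast_dvd.mp h) _)
  -- every Frobenius lift outside `bad` has a nonzero fixed vector
  have hF : ∀ ℓ : ℕ, ℓ.Prime → ℓ ∉ bad → ∀ A : ValuationSubring Qbar, A.LiesOverPrime ℓ →
      ∀ σ : GQ, A.IsFrobeniusAt σ ℓ →
        ∃ v : Submodule.torsionBy ℤ (WQ⁄Qbar).Point p, v ≠ 0 ∧ σ • v = v := by
    intro ℓ hℓ hnb A hA σ hσ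
    obtain ⟨hℓ2, hℓM, hℓp, hgood⟩ := hout ℓ hℓ hnb
    exact hred W p ℓ hp hp2 hℓ hℓ2 hℓp hgood (hcon ℓ hℓ hgood hℓM hℓp) A hA σ hσ
  have hfix := Fermat.Agent.S41.NonEis.ChebGlue.forall_exists_fixed WQ p bad hF
  obtain ⟨N, hbot, htop, hst⟩ :=
    Fermat.Agent.S41.NonEis.FixedVector.exists_stable_line (p := p) (G := GQ) hcard hfix
  rcases hirrW.2 N (fun σ x hx => hst σ x hx) with h | h
  · exact hbot h
  · exact htop h

end Fermat.Agent.S41.NonEis.Main
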