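import Mathlib
import Fermat.Agent.S41.NonEis.FixedVector

/-!
# S41 / L4 (N8a): a stable line from a normal subgroup with quotient of exponent two

`exists_stable_line_of_sq`: `p` prime, `V` a `ZMod p`-module with `p ^ 2` elements, `G` a group
acting on `V` by additive maps, `H` a normal subgroup of `G` containing all squares.  If every
element of `H` fixes some nonzero vector, then there is a submodule `N ≠ ⊥, ⊤` stable under `G`.

Proof.  Let `U` be the set of elements of `H` of determinant one; these are unipotent.
* If some `u₀ ∈ U` acts nontrivially, every nontrivially acting element of `U` has the same fixed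
  line (`FixedVector.fixSub_eq_of_unipotent` for the group `H`); as `U` is stable under
  conjugation by `G`, this line is `G`-stable.
* Otherwise, if some `h₀ ∈ H` acts nontrivially, then `g⁻¹ h₀ g` and `h₀` differ by an element
  of `U`, so they act in the same way, and the fixed line of `h₀` is `G`-stable.
* Otherwise `H` acts trivially and `G` acts through commuting involutions; the fixed space of
  any of them is `G`-stable, and if all these fixed spaces are `⊥` or `⊤` then every element acts
  as `± 1` and every line is stable.
-/

set_option autoImplicit false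

namespace Fermat.Agent.S41.NonEis.StableLineSq

open Module Fermat.Agent.S41.NonEis.FixedVector

variable {p : ℕ} [Fact p.Prime] {G V : Type*} [Group G] [AddCommGroup V] [Module (ZMod p) V]
  [DistribMulAction G V]

omit [Fact p.Prime] in
/-- conjugation invariance of a character with values in a commutative monoid -/
lemma char_conj {M : Type*} [CommMonoid M] (D : G →* M) (g h : G) :
    D (g⁻¹ * h * g) = D h := by
  rw [map_mul, map_mul, mul_comm (D g⁻¹), mul_assoc, ← map_mul, inv_mul_cancel, map_one, mul_one]

omit [Fact p.Prime] in
/-- two elements with the same value of a character differ by an element of its kernel -/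
lemma char_inv_mul {M : Type*} [CommMonoid M] (D : G →* M) {a b : G} (h : D a = D b) :
    D (a⁻¹ * b) = 1 := by
  rw [map_mul, ← h, ← map_mul, inv_mul_cancel, map_one]

/-- the determinant character of a subgroup is the restriction of the determinant character -/
lemma detChar_subgroup (H : Subgroup G) (h : H) :
    detChar p V h = detChar p V (h : G) := by
  unfold detChar
  simp only [MonoidHom.comp_apply]
  congr 1

/-- the fixed space of an element of a subgroup -/
lemma fixSub_subgroup (H : Subgroup G) (h : H) :
    fixSub p V h = fixSub p V (h : G) :=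
  Submodule.ext fun _ => Iff.rfl

variable [Finite V]

/-- **A group acting on a plane over `𝔽_p` with a normal subgroup `H` containing all squares,
all of whose elements have a nonzero fixed vector, stabilises a line.** -/
theorem exists_stable_line_of_sq (H : Subgroup G) [hH : H.Normal] (hsq : ∀ g : G, g * g ∈ H)
    (hcard : Nat.card V = p ^ 2)
    (hfix : ∀ h ∈ H, ∃ v : V, v ≠ 0 ∧ h • v = v) :
    ∃ N : Submodule (ZMod p) V, N ≠ ⊥ ∧ N ≠ ⊤ ∧ ∀ g : G, ∀ x ∈ N, g • x ∈ N := by
  have h2 := finrank_eq_two (p := p) hcard
  have hfixH : ∀ h : H, ∃ v : V, v ≠ 0 ∧ h • v = v := fun h => hfix h h.2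
  have hconj : ∀ (g : G) (h : G), h ∈ H → g⁻¹ * h * g ∈ H := by
    intro g h hh
    have := hH.conj_mem h hh g⁻¹
    rwa [inv_inv] at this
  -- a nontrivially acting element of `H` gives a proper nonzero fixed space
  have hproper : ∀ h ∈ H, ∀ x0 : V, h • x0 ≠ x0 →
      fixSub p V h ≠ ⊥ ∧ fixSub p V h ≠ ⊤ := by
    intro h hh x0 hx0
    obtain ⟨v, hv, hgv⟩ := hfix h hh
    refine ⟨fun e => ?_, fun e => ?_⟩
    · have : v ∈ fixSub p V h := hgv
      rw [e, Submodule.mem_bot] at this
      exact hv this
    · have : x0 ∈ fixSub p V h := e ▸ Submodule.mem_top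
      exact hx0 this
  -- from `(g⁻¹ h g) x = x` to `h (g x) = g x`
  have hmove : ∀ (g h : G) (x : V), (g⁻¹ * h * g) • x = x → h • g • x = g • x := by
    intro g h x key
    rw [mul_smul, mul_smul] at key
    have := congrArg (fun y => g • y) key
    simpa [smul_smul] using this
  by_cases hU : ∀ u ∈ H, detChar p V u = 1 → ∀ x : V, u • x = x
  · by_cases hHt : ∀ h ∈ H, ∀ x : V, h • x = x
    · -- `H` acts trivially: commuting involutions
      have hinv : ∀ (g : G) (x : V), g • g • x = x := by
        intro g x
        rw [smul_smul]
        exact hHt _ (hsq g) x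
      have hcomm : ∀ (g h : G) (x : V), g • h • x = h • g • x := by
        intro g h x
        have h1 : (g * h) • (g * h) • x = x := hinv (g * h) x
        rw [mul_smul, mul_smul] at h1
        -- `g h g h x = x`
        have h3 : h • g • h • x = g • x := by
          have := congrArg (fun y => g • y) h1
          simpa [hinv] using this
        have h4 : g • h • x = h • g • x := by
          have := congrArg (fun y => h • y) h3
          simpa [hinv] using this
        exact h4
      by_cases hex : ∃ g0 : G, fixSub p V g0 ≠ ⊥ ∧ fixSub p V g0 ≠ ⊤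
      · obtain ⟨g0, hb, ht⟩ := hex
        refine ⟨fixSub p V g0, hb, ht, ?_⟩
        intro g x hx
        rw [mem_fixSub] at hx ⊢
        rw [hcomm g0 g x, hx]
      · -- every element acts as `± 1`
        have hall : ∀ g0 : G, fixSub p V g0 = ⊥ ∨ fixSub p V g0 = ⊤ := by
          intro g0
          by_contra hcon
          rw [not_or] at hcon
          exact hex ⟨g0, hcon.1, hcon.2⟩
        have hnt : Nontrivial V := by
          rw [← Module.finrank_pos_iff (R := ZMod p), h2]; norm_num
        obtain ⟨v, hv⟩ := exists_ne (0 : V)
        refine ⟨Submodule.span (ZMod p) {v}, ?_, ?_, ?_⟩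
        · intro h
          have : v ∈ Submodule.span (ZMod p) {v} := Submodule.mem_span_singleton_self v
          rw [h, Submodule.mem_bot] at this
          exact hv this
        · intro h
          have h1 : finrank (ZMod p) (Submodule.span (ZMod p) {v}) = 1 := finrank_span_singleton hv
          rw [h, finrank_top, h2] at h1
          omega
        · intro g x hx
          rcases hall g with hb | ht
          · have hmem : x + g • x ∈ fixSub p V g := by
              rw [mem_fixSub, smul_add, hinv, add_comm]
            rw [hb, Submodule.mem_bot] at hmem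
            have hgx : g • x = -x := by
              rw [eq_neg_iff_add_eq_zero, add_comm]; exact hmem
            rw [hgx]
            exact Submodule.neg_mem _ hx
          · have hmem : x ∈ fixSub p V g := ht ▸ Submodule.mem_top
            rw [mem_fixSub] at hmem
            rwa [hmem]
    · -- `U` acts trivially, some `h0 ∈ H` does not
      push Not at hHt
      obtain ⟨h0, hh0, x0, hx0⟩ := hHt
      refine ⟨fixSub p V h0, (hproper h0 hh0 x0 hx0).1, (hproper h0 hh0 x0 hx0).2, ?_⟩
      intro g x hx
      rw [mem_fixSub] at hx ⊢
      apply hmove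
      have hmem : (g⁻¹ * h0 * g)⁻¹ * h0 ∈ H := H.mul_mem (H.inv_mem (hconj g h0 hh0)) hh0
      have hdet : detChar p V ((g⁻¹ * h0 * g)⁻¹ * h0) = 1 :=
        char_inv_mul (detChar p V) (char_conj (detChar p V) g h0)
      have h1 := hU _ hmem hdet x
      rw [mul_smul, hx] at h1
      -- `(g⁻¹ h0 g)⁻¹ x = x`
      have := congrArg (fun y => (g⁻¹ * h0 * g) • y) h1
      simpa [smul_smul] using this.symm
  · push Not at hU
    obtain ⟨u0, hu0H, hu0, x0, hx0⟩ := hU
    refine ⟨fixSub p V u0, (hproper u0 hu0H x0 hx0).1, (hproper u0 hu0H x0 hx0).2, ?_⟩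
    intro g x hx
    rw [mem_fixSub] at hx ⊢
    apply hmove
    have hu'H : g⁻¹ * u0 * g ∈ H := hconj g u0 hu0H
    have hu' : detChar p V (g⁻¹ * u0 * g) = 1 := by rw [char_conj, hu0]
    by_cases htriv : ∀ y : V, (g⁻¹ * u0 * g) • y = y
    · exact htriv x
    · push Not at htriv
      obtain ⟨y0, hy0⟩ := htriv
      have key := fixSub_eq_of_unipotent (p := p) (G := H) (V := V) hcard hfixH
        (u := ⟨u0, hu0H⟩) (u' := ⟨g⁻¹ * u0 * g, hu'H⟩)
        (by rw [detChar_subgroup]; exact hu0) (by rw [detChar_subgroup]; exact hu')
        (x0 := x0) hx0 (x0' := y0) hy0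
      rw [fixSub_subgroup, fixSub_subgroup] at key
      have hx' : x ∈ fixSub p V (g⁻¹ * u0 * g) := key ▸ hx
      exact hx'

end Fermat.Agent.S41.NonEis.StableLineSq
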