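import Mathlib
import Fermat.Agent.S41.Top2
import Fermat.Agent.S41.NonEis.Main
import Fermat.Agent.S41.NonEis.StableLineSq
import Fermat.Agent.S41.NonEis.RedTorsion

/-!
# S41 / L4 (N9): assembly of `Top2.BlockNonEisSq` (the witness prime is a square mod `M`)

`ChebSqStmt` is the "Chebotarev for squares" statement (N8b): if every Frobenius lift at every
prime `ℓ ∉ bad` which is a square mod `M` fixes a nonzero point of `E[p](ℚ̄)`, then there is a
normal subgroup `H` of `G_ℚ` containing all squares all of whose elements fix a nonzero point.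

`blockNonEisSq_of_cheb : ChebSqStmt → Top2.BlockNonEisSq`: same contradiction as in `Main.lean`,
with `StableLineSq.exists_stable_line_of_sq` in place of `FixedVector.exists_stable_line` and the
local statement `RedTorsion.exists_fixed_vector_of_frobenius`.
-/

set_option autoImplicit false

namespace Fermat.Agent.S41.NonEis.MainSq

open WeierstrassCurve WeierstrassCurve.Affine WeierstrassCurve.Affine.Point

local notation "Qbar" => AlgebraicClosure ℚ
local notation "GQ" => (AlgebraicClosure ℚ ≃ₐ[ℚ] AlgebraicClosure ℚ)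

/-- Chebotarev for primes that are squares mod `M` (abstract form of N8b) -/
def ChebSqStmt : Prop :=
  ∀ (E : WeierstrassCurve ℚ) (p M : ℕ) [Finite (Submodule.torsionBy ℤ (E⁄Qbar).Point p)],
    0 < M → ∀ bad : Finset ℕ,
    (∀ ℓ : ℕ, ℓ.Prime → ℓ ∉ bad → (∃ m : ℕ, ℓ ≡ m * m [MOD M]) →
      ∀ A : ValuationSubring Qbar, A.LiesOverPrime ℓ → ∀ σ : GQ, A.IsFrobeniusAt σ ℓ →
        ∃ v : Submodule.torsionBy ℤ (E⁄Qbar).Point p, v ≠ 0 ∧ σ • v = v) →
    ∃ H : Subgroup GQ, H.Normal ∧ (∀ g : GQ, g * g ∈ H) ∧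
      ∀ h ∈ H, ∃ v : Submodule.torsionBy ℤ (E⁄Qbar).Point p, v ≠ 0 ∧ h • v = v

theorem blockNonEisSq_of_cheb (hcheb : ChebSqStmt) : Fermat.Agent.S41.Top2.BlockNonEisSq := by
  intro E _ W hW p hp hp2 hirr M hM
  obtain ⟨C, hC⟩ := hW
  set WQ : WeierstrassCurve ℚ := W.map (Int.castRingHom ℚ) with hWQ
  have hΔ : W.Δ ≠ 0 := Fermat.Agent.S41.NonEis.Main.Δ_ne_zero hC
  have hirrW : GaloisRepIsIrreducible (K := Qbar) ℚ WQ p :=
    Fermat.Agent.S41.NonEis.VarChange.galoisRepIsIrreducible_rat hC p hirr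
  by_contra hcon
  push Not at hcon
  have : Fact p.Prime := ⟨hp⟩
  -- the exact count
  have hΔQ : (WQ⁄Qbar).Δ ≠ 0 := by
    show (WQ.map (algebraMap ℚ Qbar)).Δ ≠ 0
    rw [WeierstrassCurve.map_Δ, hWQ, WeierstrassCurve.map_Δ]
    intro h
    have h1 := (algebraMap ℚ Qbar).injective (h.trans (_root_.map_zero _).symm)
    exact hΔ (Int.cast_injective (α := ℚ) (by simpa using h1))
  have hcard : Nat.card (Submodule.torsionBy ℤ (WQ⁄Qbar).Point (p : ℕ)) = p ^ 2 :=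
    Fermat.Agent.S41.NonEis.TorsionCard.card_prime_torsion_eq (WQ⁄Qbar) hΔQ hp hp2
  have hfin : Finite (Submodule.torsionBy ℤ (WQ⁄Qbar).Point (p : ℕ)) := by
    apply Nat.finite_of_card_ne_zero
    rw [hcard]
    exact pow_ne_zero 2 hp.ne_zero
  -- the bad set
  set bad : Finset ℕ := (2 * M * p * W.Δ.natAbs).primeFactors with hbad
  have hprod : 2 * M * p * W.Δ.natAbs ≠ 0 := by
    have h1 : W.Δ.natAbs ≠ 0 := Int.natAbs_ne_zero.mpr hΔ
    have h2 : M ≠ 0 := hM.ne'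
    have h3 : p ≠ 0 := hp.ne_zero
    positivity
  have hout : ∀ ℓ : ℕ, ℓ.Prime → ℓ ∉ bad → ℓ ≠ 2 ∧ ¬ ℓ ∣ M ∧ ℓ ≠ p ∧ ¬ (ℓ : ℤ) ∣ W.Δ := by
    intro ℓ hℓ hnb
    have hnd : ¬ ℓ ∣ 2 * M * p * W.Δ.natAbs := by
      intro hd
      exact hnb (Nat.mem_primeFactors.mpr ⟨hℓ, hd, hprod⟩)
    refine ⟨?_, ?_, ?_, ?_⟩
    · rintro rfl
      exact hnd (Dvd.dvd.mul_right (Dvd.dvd.mul_right (Dvd.intro _ rfl) _) _)
    · intro h
      exact hnd (Dvd.dvd.mul_right (Dvd.dvd.mul_right (Dvd.dvd.mul_left h _) _) _)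
    · rintro rfl
      exact hnd (Dvd.dvd.mul_right (Dvd.intro_left _ rfl) _)
    · intro h
      exact hnd (Dvd.dvd.mul_left (Int.natCast_dvd.mp h) _)
  -- every Frobenius lift at a square prime outside `bad` has a nonzero fixed vector
  have hF : ∀ ℓ : ℕ, ℓ.Prime → ℓ ∉ bad → (∃ m : ℕ, ℓ ≡ m * m [MOD M]) →
      ∀ A : ValuationSubring Qbar, A.LiesOverPrime ℓ →
      ∀ σ : GQ, A.IsFrobeniusAt σ ℓ →
        ∃ v : Submodule.torsionBy ℤ (WQ⁄Qbar).Point p, v ≠ 0 ∧ σ • v = v := by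
    intro ℓ hℓ hnb hsq A hA σ hσ
    obtain ⟨hℓ2, hℓM, hℓp, hgood⟩ := hout ℓ hℓ hnb
    exact Fermat.Agent.S41.NonEis.RedTorsion.exists_fixed_vector_of_frobenius W hp hp2 hℓ hℓ2 hℓp
      hgood (hcon ℓ hℓ hgood hℓM hℓp hsq) A hA σ hσ
  obtain ⟨H, hHn, hHsq, hHfix⟩ := hcheb WQ p M hM bad hF
  obtain ⟨N, hbot, htop, hst⟩ :=
    Fermat.Agent.S41.NonEis.StableLineSq.exists_stable_line_of_sq (p := p) (G := GQ) H hHsq
      hcard hHfix
  rcases hirrW.2 N (fun σ x hx => hst σ x hx) with h | h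
  · exact hbot h
  · exact htop h

end Fermat.Agent.S41.NonEis.MainSq
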