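import Mathlib
import Fermat.Agent.S51.Cubic

/-!
# S41 / L4 (R2): a unit discriminant gives nonsingular reduction

`bezout_cf`: the explicit Bézout identity `U · f + V · f' = -16 Δ` for the 2-division cubic
`f = cf = 4x³ + b₂x² + 2b₄x + b₆` (`disc f = 16 Δ`), over any field.

`nonsing_of_Δ_unit`: for a valuation subring `A` with `2` and `Δ` units and integral `b`-invariants,
an integral abscissa `x` and `η² = f(x)`: `η` is a unit or `f'(x)` is a unit.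
-/

set_option autoImplicit false

namespace Fermat.Agent.S41.NonEis.NonsingRed

open Fermat.Agent.S51

section Ring

variable {R : Type*} [Field R]

/-- the cofactor of `cf` -/
def cofU (b2 b4 b6 x : R) : R :=
  -(12 * (48 * b4 - 2 * b2 ^ 2) * x - 12 * (36 * b6 - 2 * b2 * b4) + 2 * b2 * (48 * b4 - 2 * b2 ^ 2))

/-- the cofactor of `cf1` -/
def cofV (b2 b4 b6 x : R) : R :=
  4 * (48 * b4 - 2 * b2 ^ 2) * x ^ 2 + (b2 * (48 * b4 - 2 * b2 ^ 2) - 4 * (36 * b6 - 2 * b2 * b4)) * x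
    + (64 * b4 ^ 2 - 2 * b2 ^ 2 * b4 - 12 * b2 * b6)

/-- **Bézout identity** for the 2-division cubic and its derivative. -/
theorem bezout_cf (b2 b4 b6 b8 x : R) (hrel : 4 * b8 = b2 * b6 - b4 ^ 2) :
    cofU b2 b4 b6 x * cf b2 b4 b6 x + cofV b2 b4 b6 x * cf1 b2 b4 x =
      -16 * (-b2 ^ 2 * b8 - 8 * b4 ^ 3 - 27 * b6 ^ 2 + 9 * b2 * b4 * b6) := by
  simp only [cofU, cofV, cf, cf1]
  linear_combination (-4 * b2 ^ 2) * hrel

end Ring

section Val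

variable {K : Type*} [Field K] (A : ValuationSubring K) (W : WeierstrassCurve K)

theorem nonsing_of_Δ_unit (h2 : A.valuation (2 : K) = 1)
    (hb2 : W.b₂ ∈ A) (hb4 : W.b₄ ∈ A) (hb6 : W.b₆ ∈ A) (hΔ : A.valuation W.Δ = 1)
    {x η : K} (hx : x ∈ A) (hη : η ^ 2 = cf W.b₂ W.b₄ W.b₆ x) :
    A.valuation η = 1 ∨ A.valuation (cf1 W.b₂ W.b₄ x) = 1 := by
  set v := A.valuation with hv
  have hn : ∀ n : ℕ, (n : K) ∈ A := fun n => natCast_mem A n
  have hU : cofU W.b₂ W.b₄ W.b₆ x ∈ A := by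
    simp only [cofU]
    have h12 : (12 : K) ∈ A := by exact_mod_cast hn 12
    have h48 : (48 : K) ∈ A := by exact_mod_cast hn 48
    have h36 : (36 : K) ∈ A := by exact_mod_cast hn 36
    have h2' : (2 : K) ∈ A := by exact_mod_cast hn 2
    have hp1 : 48 * W.b₄ - 2 * W.b₂ ^ 2 ∈ A :=
      sub_mem (mul_mem h48 hb4) (mul_mem h2' (pow_mem hb2 2))
    have hp0 : 36 * W.b₆ - 2 * W.b₂ * W.b₄ ∈ A :=
      sub_mem (mul_mem h36 hb6) (mul_mem (mul_mem h2' hb2) hb4)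
    exact neg_mem (add_mem (sub_mem (mul_mem (mul_mem h12 hp1) hx) (mul_mem h12 hp0))
      (mul_mem (mul_mem h2' hb2) hp1))
  have hV : cofV W.b₂ W.b₄ W.b₆ x ∈ A := by
    simp only [cofV]
    have h4 : (4 : K) ∈ A := by exact_mod_cast hn 4
    have h12 : (12 : K) ∈ A := by exact_mod_cast hn 12
    have h48 : (48 : K) ∈ A := by exact_mod_cast hn 48
    have h36 : (36 : K) ∈ A := by exact_mod_cast hn 36
    have h64 : (64 : K) ∈ A := by exact_mod_cast hn 64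
    have h2' : (2 : K) ∈ A := by exact_mod_cast hn 2
    have hp1 : 48 * W.b₄ - 2 * W.b₂ ^ 2 ∈ A :=
      sub_mem (mul_mem h48 hb4) (mul_mem h2' (pow_mem hb2 2))
    have hp0 : 36 * W.b₆ - 2 * W.b₂ * W.b₄ ∈ A :=
      sub_mem (mul_mem h36 hb6) (mul_mem (mul_mem h2' hb2) hb4)
    exact add_mem (add_mem (mul_mem (mul_mem h4 hp1) (pow_mem hx 2))
      (mul_mem (sub_mem (mul_mem hb2 hp1) (mul_mem h4 hp0)) hx))
      (sub_mem (sub_mem (mul_mem h64 (pow_mem hb4 2)) (mul_mem (mul_mem h2' (pow_mem hb2 2)) hb4))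
        (mul_mem (mul_mem h12 hb2) hb6))
  have hvU : v (cofU W.b₂ W.b₄ W.b₆ x) ≤ 1 := (A.valuation_le_one_iff _).mpr hU
  have hvV : v (cofV W.b₂ W.b₄ W.b₆ x) ≤ 1 := (A.valuation_le_one_iff _).mpr hV
  have hcfA : cf W.b₂ W.b₄ W.b₆ x ∈ A := by
    simp only [cf]
    have h4 : (4 : K) ∈ A := by exact_mod_cast hn 4
    have h2' : (2 : K) ∈ A := by exact_mod_cast hn 2
    exact add_mem (add_mem (add_mem (mul_mem h4 (pow_mem hx 3)) (mul_mem hb2 (pow_mem hx 2)))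
      (mul_mem (mul_mem h2' hb4) hx)) hb6
  have hcf1A : cf1 W.b₂ W.b₄ x ∈ A := by
    simp only [cf1]
    have h12 : (12 : K) ∈ A := by exact_mod_cast hn 12
    have h2' : (2 : K) ∈ A := by exact_mod_cast hn 2
    exact add_mem (add_mem (mul_mem h12 (pow_mem hx 2)) (mul_mem (mul_mem h2' hb2) hx))
      (mul_mem h2' hb4)
  have hvcf : v (cf W.b₂ W.b₄ W.b₆ x) ≤ 1 := (A.valuation_le_one_iff _).mpr hcfA
  have hvcf1 : v (cf1 W.b₂ W.b₄ x) ≤ 1 := (A.valuation_le_one_iff _).mpr hcf1A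
  by_contra hcon
  push Not at hcon
  obtain ⟨hη1, hc1⟩ := hcon
  have hc1' : v (cf1 W.b₂ W.b₄ x) < 1 := lt_of_le_of_ne hvcf1 hc1
  have hηle : v η ≤ 1 := by
    by_contra hlt
    rw [not_le] at hlt
    have : 1 < v η ^ 2 := one_lt_pow₀ hlt (by norm_num)
    rw [← map_pow, hη] at this
    exact absurd hvcf (not_le.mpr this)
  have hη' : v η < 1 := lt_of_le_of_ne hηle hη1
  have hc' : v (cf W.b₂ W.b₄ W.b₆ x) < 1 := by
    rw [← hη, map_pow]
    exact pow_lt_one₀ zero_le hη' (by norm_num)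
  have hbez := bezout_cf W.b₂ W.b₄ W.b₆ W.b₈ x W.b_relation
  have hlhs : v (cofU W.b₂ W.b₄ W.b₆ x * cf W.b₂ W.b₄ W.b₆ x +
      cofV W.b₂ W.b₄ W.b₆ x * cf1 W.b₂ W.b₄ x) < 1 := by
    refine Valuation.map_add_lt v ?_ ?_
    · rw [map_mul]
      calc v (cofU W.b₂ W.b₄ W.b₆ x) * v (cf W.b₂ W.b₄ W.b₆ x)
          ≤ 1 * v (cf W.b₂ W.b₄ W.b₆ x) := by gcongr
        _ = v (cf W.b₂ W.b₄ W.b₆ x) := one_mul _
        _ < 1 := hc'
    · rw [map_mul]
      calc v (cofV W.b₂ W.b₄ W.b₆ x) * v (cf1 W.b₂ W.b₄ x)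
          ≤ 1 * v (cf1 W.b₂ W.b₄ x) := by gcongr
        _ = v (cf1 W.b₂ W.b₄ x) := one_mul _
        _ < 1 := hc1'
  rw [hbez] at hlhs
  have h16 : v (16 : K) = 1 := by
    have : (16 : K) = 2 ^ 4 := by norm_num
    rw [this, map_pow, h2, one_pow]
  have hΔ' : W.Δ = -W.b₂ ^ 2 * W.b₈ - 8 * W.b₄ ^ 3 - 27 * W.b₆ ^ 2 + 9 * W.b₂ * W.b₄ * W.b₆ := rfl
  rw [← hΔ', map_mul, Valuation.map_neg, h16, one_mul, hΔ] at hlhs
  exact lt_irrefl _ hlhs

end Val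

end Fermat.Agent.S41.NonEis.NonsingRed
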