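import Mathlib

/-!
# S41 / L4 (R1): lifting a root modulo the maximal ideal of a valuation subring

`K` algebraically closed, `A` a valuation subring of `K`, `G : K[X]` with coefficients in `A` and
unit leading coefficient.

* `root_mem`: every root of `G` lies in `A`;
* `exists_root_congr`: if `c ∈ A` and `G(c)` lies in the maximal ideal, then `G` has a root `r ∈ A`
  with `r ≡ c` modulo the maximal ideal.
-/

set_option autoImplicit false

namespace Fermat.Agent.S41.NonEis.RootLift

open Polynomial

variable {K : Type*} [Field K] (A : ValuationSubring K) {G : K[X]}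

/-- roots of a polynomial with integral coefficients and unit leading coefficient are integral -/
theorem root_mem (hcoef : ∀ i, G.coeff i ∈ A) (hlead : A.valuation G.leadingCoeff = 1)
    {r : K} (hr : G.eval r = 0) : r ∈ A := by
  set v := A.valuation with hv
  by_contra hrA
  have hr1 : 1 < v r := by rwa [← A.valuation_le_one_iff, not_le] at hrA
  have hpos : (0 : A.ValueGroup) < v r := lt_trans zero_lt_one hr1
  set n := G.natDegree with hn
  have hsum : G.eval r = (∑ i ∈ Finset.range n, G.coeff i * r ^ i) + G.leadingCoeff * r ^ n := by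
    rw [eval_eq_sum_range, Finset.sum_range_succ]
    rfl
  have htop : v (G.leadingCoeff * r ^ n) = v r ^ n := by rw [map_mul, hlead, one_mul, map_pow]
  have hne : v r ^ n ≠ 0 := pow_ne_zero _ hpos.ne'
  have hlow : v (∑ i ∈ Finset.range n, G.coeff i * r ^ i) < v r ^ n := by
    apply Valuation.map_sum_lt v hne
    intro i hi
    have hin : i < n := Finset.mem_range.mp hi
    rw [map_mul, map_pow]
    have hc : v (G.coeff i) ≤ 1 := (A.valuation_le_one_iff _).mpr (hcoef i)
    calc v (G.coeff i) * v r ^ i ≤ 1 * v r ^ i := by gcongr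
      _ = v r ^ i := one_mul _
      _ < v r ^ n := pow_lt_pow_right₀ hr1 hin
  have h := Valuation.map_add_eq_of_lt_left v (x := G.leadingCoeff * r ^ n)
    (y := ∑ i ∈ Finset.range n, G.coeff i * r ^ i) (by rw [htop]; exact hlow)
  rw [add_comm, ← hsum, hr, map_zero, htop] at h
  exact hne h.symm

/-- **Root lifting.** -/
theorem exists_root_congr [IsAlgClosed K] (hcoef : ∀ i, G.coeff i ∈ A)
    (hlead : A.valuation G.leadingCoeff = 1) {c : K} (hc : c ∈ A)
    (hGc : A.valuation (G.eval c) < 1) :
    ∃ r : K, G.eval r = 0 ∧ r ∈ A ∧ A.valuation (r - c) < 1 := by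
  set v := A.valuation with hv
  have hsplit : G.Splits := IsAlgClosed.splits G
  have hG0 : G ≠ 0 := by
    rintro rfl
    rw [leadingCoeff_zero, map_zero] at hlead
    exact zero_ne_one hlead
  by_contra hcon
  push Not at hcon
  -- every factor `c - r` is a unit
  have hfac : ∀ r ∈ G.roots, v (c - r) = 1 := by
    intro r hr
    have hr0 : G.eval r = 0 := (mem_roots hG0).mp hr
    have hrA : r ∈ A := root_mem A hcoef hlead hr0
    have hle : v (c - r) ≤ 1 := (A.valuation_le_one_iff _).mpr (sub_mem hc hrA)
    have hge : 1 ≤ v (r - c) := hcon r hr0 hrA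
    rw [← neg_sub, Valuation.map_neg] at hge
    exact le_antisymm hle hge
  have hev := hsplit.eval_eq_prod_roots c
  have hprod : v ((G.roots.map (c - ·)).prod) = 1 := by
    rw [map_multiset_prod, Multiset.map_map]
    apply Multiset.prod_eq_one
    intro x hx
    obtain ⟨r, hr, rfl⟩ := Multiset.mem_map.mp hx
    exact hfac r hr
  rw [hev, map_mul, hlead, one_mul, hprod] at hGc
  exact lt_irrefl _ hGc

end Fermat.Agent.S41.NonEis.RootLift
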